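/-
S55 (Poitou-Tate), block BASE, part W-A = (AL): the ABSTRACT description of the duality map `alpha`
on `coind L V triv`.

For any `G`, `L`, `σ` on `W`, `tr : H²(G, W) → k`, `V` open:

* `ALfix σ V`   : the submodule `W^V`;
* `ALw σ V w`   : `c ↦ c • w`, a `V`-equivariant map `triv → σ` (linear in `w`);
* `ALe L V σ`   : `W^V → Hom_G(coind L V triv, σ)`, `(ALe w) F = ∑_{q ∈ G/V} F q⁻¹ • σ q w`
                  (`ALe_apply`), bijective for `V` open (`ALe_bijective`, inverse = evaluation at the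
                  indicator function `Inj_ind L V hV` of `V`: `ALe_ind`);
* `alpha_ALe`   : `alpha (ALe w) y = tr (cores_V^G (w_* (shapiro y)))`;
* `ALT L V σ tr : W^V → Dual (H²(V, triv))`, `w ↦ tr ∘ cores ∘ w_*`;
* `alpha_coind_injective_iff / surjective_iff / bijective_iff` : `alpha` on `coind L V triv` versus `ALT`;
* `ALT_cores`   : `ALT V' w y' = ALT V w (cores_{V'}^V y')` for `V' ≤ V`, `w ∈ W^V`;
* `ALT_mono`, `alpha_ALe_mono` : monotonicity;
* `alpha_coind_bijective_of_line` : the case `W^V = k w₀` (local duality base case).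
-/
import Fermat.Agent.PT.Duality.Inj

set_option autoImplicit false
set_option maxHeartbeats 400000

namespace Fermat.Agent.PT

variable {k : Type*} [CommRing k] {G : Type*} [Group G]
variable {W : Type*} [AddCommGroup W] [Module k W]

/-- The submodule `W^V` of vectors fixed by `V`. -/
def ALfix (σ : Representation k G W) (V : Subgroup G) : Submodule k W where
  carrier := {w | ∀ v ∈ V, σ v w = w}
  add_mem' := by
    intro a b ha hb v hv
    rw [map_add, ha v hv, hb v hv]
  zero_mem' := fun v _ => map_zero _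
  smul_mem' := by
    intro c a ha v hv
    rw [map_smul, ha v hv]

lemma mem_ALfix {σ : Representation k G W} {V : Subgroup G} {w : W} :
    w ∈ ALfix σ V ↔ ∀ v ∈ V, σ v w = w := Iff.rfl

lemma ALfix_anti (σ : Representation k G W) {V V' : Subgroup G} (h : V' ≤ V) :
    ALfix σ V ≤ ALfix σ V' := fun _ hw v hv => hw v (h hv)

/-- `c ↦ c • w` as a `V`-equivariant map from the trivial representation, linear in `w ∈ W^V`. -/
def ALw (σ : Representation k G W) (V : Subgroup G) :
    ALfix σ V →ₗ[k] EHomOn V (trivK k G) σ where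
  toFun w := ⟨LinearMap.toSpanSingleton k W w.1, fun v hv c => by
    change c • w.1 = σ v (c • w.1)
    rw [map_smul, w.2 v hv]⟩
  map_add' w w' := by
    apply Subtype.ext
    apply LinearMap.ext
    intro c
    exact smul_add c w.1 w'.1
  map_smul' a w := by
    apply Subtype.ext
    apply LinearMap.ext
    intro c
    exact smul_comm c a w.1

@[simp] lemma ALw_apply (σ : Representation k G W) (V : Subgroup G) (w : ALfix σ V) (c : k) :
    (ALw σ V w).1 c = c • (w : W) := rfl

lemma AL_mulm_mem (L : LevelSystem G) (V : Subgroup G) (σ : Representation k G W)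
    (w : ALfix σ V) :
    Inj_mulm L V σ w.1 w.2 ∈ EHomOn ⊤ (coind L V (trivK k G)) (coind L V σ) := by
  intro g _ F
  ext x
  rfl

/-- `W^V → Hom_G(coind L V triv, σ)`, `(ALe w) F = ∑_{q ∈ G/V} F q⁻¹ • σ q w`. -/
noncomputable def ALe (L : LevelSystem G) (V : Subgroup G) [Finite (CosetsIn (⊤ : Subgroup G) V)]
    (σ : Representation k G W) : ALfix σ V →ₗ[k] EHomOn ⊤ (coind L V (trivK k G)) σ where
  toFun w := ⟨coindTrace L V σ ∘ₗ Inj_mulm L V σ w.1 w.2,
    EHomOn.comp_mem (EHom.on (coindTrace_mem_EHom L V σ) ⊤) (AL_mulm_mem L V σ w)⟩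
  map_add' w w' := by
    apply Subtype.ext
    apply LinearMap.ext
    intro F
    have h : Inj_mulm L V σ (w + w').1 (w + w').2 F
        = Inj_mulm L V σ w.1 w.2 F + Inj_mulm L V σ w'.1 w'.2 F := by
      ext x
      exact smul_add _ _ _
    change coindTrace L V σ (Inj_mulm L V σ (w + w').1 (w + w').2 F) =
      coindTrace L V σ (Inj_mulm L V σ w.1 w.2 F) + coindTrace L V σ (Inj_mulm L V σ w'.1 w'.2 F)
    rw [h, map_add]
  map_smul' a w := by
    apply Subtype.ext
    apply LinearMap.ext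
    intro F
    have h : Inj_mulm L V σ (a • w).1 (a • w).2 F = a • Inj_mulm L V σ w.1 w.2 F := by
      ext x
      exact smul_comm _ _ _
    change coindTrace L V σ (Inj_mulm L V σ (a • w).1 (a • w).2 F) =
      a • coindTrace L V σ (Inj_mulm L V σ w.1 w.2 F)
    rw [h, map_smul]

lemma ALe_coe (L : LevelSystem G) (V : Subgroup G) [Finite (CosetsIn (⊤ : Subgroup G) V)]
    (σ : Representation k G W) (w : ALfix σ V) :
    (ALe L V σ w).1 = coindTrace L V σ ∘ₗ Inj_mulm L V σ w.1 w.2 := rfl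

lemma ALe_apply (L : LevelSystem G) (V : Subgroup G) [Finite (CosetsIn (⊤ : Subgroup G) V)]
    [Fintype (CosetsIn (⊤ : Subgroup G) V)]
    (σ : Representation k G W) (w : ALfix σ V) (F : X0 L V (trivK k G)) :
    (ALe L V σ w).1 F =
      ∑ q : CosetsIn (⊤ : Subgroup G) V, (F : G → k) q.rep⁻¹ • σ q.rep (w : W) := by
  rw [ALe_coe, LinearMap.comp_apply, shapiro_coindTrace_apply]
  refine Finset.sum_congr rfl fun q _ => ?_
  change σ q.rep ((F : G → k) q.rep⁻¹ • (w : W)) = _
  rw [map_smul]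

/-- `ALe w` takes the value `w` at the indicator function of `V`. -/
lemma ALe_ind (L : LevelSystem G) (V : Subgroup G) (hV : L.IsOpen V)
    [Finite (CosetsIn (⊤ : Subgroup G) V)] (σ : Representation k G W) (w : ALfix σ V) :
    (ALe L V σ w).1 (Inj_ind L V hV) = w := by
  classical
  let _ := Fintype.ofFinite (CosetsIn (⊤ : Subgroup G) V)
  rw [ALe_apply]
  rw [Finset.sum_eq_single (QuotientGroup.mk 1 : CosetsIn (⊤ : Subgroup G) V)]
  · have h1 : CosetsIn.rep (QuotientGroup.mk 1 : CosetsIn (⊤ : Subgroup G) V) ∈ V :=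
      (Inj_rep_mem_iff V _).2 rfl
    rw [Inj_ind_apply_coe, if_pos (V.inv_mem h1), one_smul, w.2 _ h1]
  · intro q _ hq
    have h1 : (CosetsIn.rep q)⁻¹ ∉ V := by
      intro h
      exact hq ((Inj_rep_mem_iff V q).1 (by simpa using V.inv_mem h))
    rw [Inj_ind_apply_coe, if_neg h1, zero_smul]
  · intro h
    exact absurd (Finset.mem_univ _) h

/-- Every `F ∈ coind L V triv` is a combination of translates of the indicator function of `V`. -/
lemma AL_decomp (L : LevelSystem G) (V : Subgroup G) (hV : L.IsOpen V)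
    [Fintype (CosetsIn (⊤ : Subgroup G) V)] (F : X0 L V (trivK k G)) :
    F = ∑ q : CosetsIn (⊤ : Subgroup G) V,
      (F : G → k) q.rep⁻¹ • coind L V (trivK k G) q.rep (Inj_ind L V hV) := by
  classical
  ext x
  rw [Submodule.coe_sum, Finset.sum_apply]
  obtain ⟨q₀, hq₀, huniq⟩ := (isReps_rep (⊤ : Subgroup G) V).2 x⁻¹ trivial
  have hq₀' : x * q₀.rep ∈ V := by
    have := V.inv_mem hq₀
    simpa using this
  rw [Finset.sum_eq_single q₀]
  · change (F : G → k) x = (F : G → k) q₀.rep⁻¹ • (Inj_ind (k := k) L V hV : G → k) (x * q₀.rep)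
    rw [Inj_ind_apply_coe, if_pos hq₀', smul_eq_mul, mul_one]
    have h2 := F.2.1 (x * q₀.rep) hq₀' q₀.rep⁻¹
    rw [mul_inv_cancel_right] at h2
    exact h2
  · intro q _ hq
    change (F : G → k) q.rep⁻¹ • (Inj_ind (k := k) L V hV : G → k) (x * q.rep) = 0
    have h1 : x * q.rep ∉ V := by
      intro h
      apply hq
      apply huniq
      have := V.inv_mem h
      simpa using this
    rw [Inj_ind_apply_coe, if_neg h1, smul_zero]
  · intro h
    exact absurd (Finset.mem_univ _) h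

/-- The value of an equivariant map at the indicator function of `V` is fixed by `V`. -/
lemma AL_ind_mem (L : LevelSystem G) (V : Subgroup G) (hV : L.IsOpen V)
    (σ : Representation k G W) (φ : EHomOn ⊤ (coind L V (trivK k G)) σ) :
    φ.1 (Inj_ind L V hV) ∈ ALfix σ V := by
  classical
  intro v hv
  rw [← φ.2 v trivial]
  congr 1
  ext x
  change (Inj_ind (k := k) L V hV : G → k) (x * v) = (Inj_ind (k := k) L V hV : G → k) x
  rw [Inj_ind_apply_coe, Inj_ind_apply_coe]
  have h1 : x * v ∈ V ↔ x ∈ V := Subgroup.mul_mem_cancel_right V hv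
  simp only [h1]

theorem ALe_bijective (L : LevelSystem G) (V : Subgroup G) (hV : L.IsOpen V)
    [Finite (CosetsIn (⊤ : Subgroup G) V)] (σ : Representation k G W) :
    Function.Bijective (ALe L V σ) := by
  classical
  let _ := Fintype.ofFinite (CosetsIn (⊤ : Subgroup G) V)
  constructor
  · intro w w' h
    apply Subtype.ext
    rw [← ALe_ind L V hV σ w, ← ALe_ind L V hV σ w', h]
  · intro φ
    refine ⟨⟨φ.1 (Inj_ind L V hV), AL_ind_mem L V hV σ φ⟩, ?_⟩
    apply Subtype.ext
    apply LinearMap.ext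
    intro F
    rw [ALe_apply]
    conv_rhs => rw [AL_decomp L V hV F]
    rw [map_sum]
    refine Finset.sum_congr rfl fun q _ => ?_
    rw [map_smul, φ.2 q.rep trivial]

/-- `ALe` as a linear equivalence. -/
noncomputable def ALeEquiv (L : LevelSystem G) (V : Subgroup G) (hV : L.IsOpen V)
    [Finite (CosetsIn (⊤ : Subgroup G) V)] (σ : Representation k G W) :
    ALfix σ V ≃ₗ[k] EHomOn ⊤ (coind L V (trivK k G)) σ :=
  LinearEquiv.ofBijective (ALe L V σ) (ALe_bijective L V hV σ)

/-- Shapiro's map is natural for `F ↦ F • w`. -/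
lemma AL_shapiro_mulm (L : LevelSystem G) (V : Subgroup G) (σ : Representation k G W)
    (w : ALfix σ V) (y : H2 L ⊤ (coind L V (trivK k G))) :
    (shapiroC L V σ).H2 (mapH2 L ⊤ _ _ ⟨_, AL_mulm_mem L V σ w⟩ y) =
      mapH2 L V (trivK k G) σ (ALw σ V w) ((shapiroC L V (trivK k G)).H2 y) := by
  obtain ⟨z, rfl⟩ := H2.mk_surjective _ _ _ y
  rfl

/-- (AL) FORMULA: `alpha (ALe w) y = tr (cores_V^G (w_* (shapiro y)))`. -/
theorem alpha_ALe (L : LevelSystem G) (V : Subgroup G) [Finite (CosetsIn (⊤ : Subgroup G) V)]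
    (σ : Representation k G W) (tr : H2 L ⊤ σ →ₗ[k] k) (w : ALfix σ V)
    (y : H2 L ⊤ (coind L V (trivK k G))) :
    alpha L ⊤ σ tr (coind L V (trivK k G)) (ALe L V σ w) y =
      tr ((coresC L σ ⊤ V).H2
        (mapH2 L V (trivK k G) σ (ALw σ V w) ((shapiroC L V (trivK k G)).H2 y))) := by
  rw [alpha_apply, ← AL_shapiro_mulm, ← coindTrace_H2]
  congr 1
  exact mapH2_comp L ⟨coindTrace L V σ, EHom.on (coindTrace_mem_EHom L V σ) ⊤⟩
    ⟨_, AL_mulm_mem L V σ w⟩ y

/-- `W^V → Dual (H²(V, triv))`, `w ↦ tr ∘ cores_V^G ∘ w_*`. -/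
noncomputable def ALT (L : LevelSystem G) (V : Subgroup G) [Finite (CosetsIn (⊤ : Subgroup G) V)]
    (σ : Representation k G W) (tr : H2 L ⊤ σ →ₗ[k] k) :
    ALfix σ V →ₗ[k] Module.Dual k (H2 L V (trivK k G)) :=
  (LinearMap.llcomp k (H2 L V (trivK k G)) (H2 L V σ) k (tr ∘ₗ (coresC L σ ⊤ V).H2)) ∘ₗ
    mapH2 L V (trivK k G) σ ∘ₗ ALw σ V

@[simp] lemma ALT_apply (L : LevelSystem G) (V : Subgroup G) [Finite (CosetsIn (⊤ : Subgroup G) V)]
    (σ : Representation k G W) (tr : H2 L ⊤ σ →ₗ[k] k) (w : ALfix σ V)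
    (y : H2 L V (trivK k G)) :
    ALT L V σ tr w y = tr ((coresC L σ ⊤ V).H2 (mapH2 L V (trivK k G) σ (ALw σ V w) y)) := rfl

lemma alpha_ALe_eq_ALT (L : LevelSystem G) (V : Subgroup G) [Finite (CosetsIn (⊤ : Subgroup G) V)]
    (σ : Representation k G W) (tr : H2 L ⊤ σ →ₗ[k] k) (w : ALfix σ V)
    (y : H2 L ⊤ (coind L V (trivK k G))) :
    alpha L ⊤ σ tr (coind L V (trivK k G)) (ALe L V σ w) y =
      ALT L V σ tr w ((shapiroC L V (trivK k G)).H2 y) := alpha_ALe L V σ tr w y

lemma alpha_ALe_eq_zero_iff (L : LevelSystem G) (V : Subgroup G)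
    [Finite (CosetsIn (⊤ : Subgroup G) V)]
    (σ : Representation k G W) (tr : H2 L ⊤ σ →ₗ[k] k) (w : ALfix σ V) :
    alpha L ⊤ σ tr (coind L V (trivK k G)) (ALe L V σ w) = 0 ↔ ALT L V σ tr w = 0 := by
  constructor
  · intro h
    apply LinearMap.ext
    intro y
    obtain ⟨y', rfl⟩ := (shapiro_bijective_H2 L V (trivK k G)).2 y
    rw [← alpha_ALe_eq_ALT, h]
    rfl
  · intro h
    apply LinearMap.ext
    intro y
    rw [alpha_ALe_eq_ALT, h]
    rfl

theorem alpha_coind_injective_iff (L : LevelSystem G) (V : Subgroup G) (hV : L.IsOpen V)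
    [Finite (CosetsIn (⊤ : Subgroup G) V)]
    (σ : Representation k G W) (tr : H2 L ⊤ σ →ₗ[k] k) :
    Function.Injective (alpha L ⊤ σ tr (coind L V (trivK k G))) ↔
      Function.Injective (ALT L V σ tr) := by
  rw [injective_iff_map_eq_zero, injective_iff_map_eq_zero]
  constructor
  · intro h w hw
    have := h _ ((alpha_ALe_eq_zero_iff L V σ tr w).2 hw)
    exact (ALe_bijective L V hV σ).1 (by rw [this, map_zero])
  · intro h φ hφ
    obtain ⟨w, rfl⟩ := (ALe_bijective L V hV σ).2 φ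
    rw [h w ((alpha_ALe_eq_zero_iff L V σ tr w).1 hφ), map_zero]

theorem alpha_coind_surjective_iff (L : LevelSystem G) (V : Subgroup G) (hV : L.IsOpen V)
    [Finite (CosetsIn (⊤ : Subgroup G) V)]
    (σ : Representation k G W) (tr : H2 L ⊤ σ →ₗ[k] k) :
    Function.Surjective (alpha L ⊤ σ tr (coind L V (trivK k G))) ↔
      Function.Surjective (ALT L V σ tr) := by
  constructor
  · intro h τ
    obtain ⟨φ, hφ⟩ := h (τ ∘ₗ (shapiroC L V (trivK k G)).H2)
    obtain ⟨w, rfl⟩ := (ALe_bijective L V hV σ).2 φ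
    refine ⟨w, ?_⟩
    apply LinearMap.ext
    intro y
    obtain ⟨y', rfl⟩ := (shapiro_bijective_H2 L V (trivK k G)).2 y
    rw [← alpha_ALe_eq_ALT, hφ]
    rfl
  · intro h τ
    let e := LinearEquiv.ofBijective _ (shapiro_bijective_H2 L V (trivK k G))
    obtain ⟨w, hw⟩ := h (τ ∘ₗ e.symm.toLinearMap)
    refine ⟨ALe L V σ w, ?_⟩
    apply LinearMap.ext
    intro y
    rw [alpha_ALe_eq_ALT, hw]
    change τ (e.symm (e y)) = τ y
    rw [LinearEquiv.symm_apply_apply]

theorem alpha_coind_bijective_iff (L : LevelSystem G) (V : Subgroup G) (hV : L.IsOpen V)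
    [Finite (CosetsIn (⊤ : Subgroup G) V)]
    (σ : Representation k G W) (tr : H2 L ⊤ σ →ₗ[k] k) :
    Function.Bijective (alpha L ⊤ σ tr (coind L V (trivK k G))) ↔
      Function.Bijective (ALT L V σ tr) :=
  and_congr (alpha_coind_injective_iff L V hV σ tr) (alpha_coind_surjective_iff L V hV σ tr)

/-- `ALT V' w y' = ALT V w (cores_{V'}^V y')` for `V' ≤ V` and `w ∈ W^V`. -/
theorem ALT_cores (L : LevelSystem G) {V V' : Subgroup G} (h : V' ≤ V)
    [Finite (CosetsIn (⊤ : Subgroup G) V)] [Finite (CosetsIn (⊤ : Subgroup G) V')]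
    [Finite (CosetsIn V V')]
    (σ : Representation k G W) (tr : H2 L ⊤ σ →ₗ[k] k) (w : ALfix σ V)
    (y : H2 L V' (trivK k G)) :
    ALT L V' σ tr (Submodule.inclusion (ALfix_anti σ h) w) y =
      ALT L V σ tr w ((coresC L (trivK k G) V V').H2 y) := by
  obtain ⟨z, rfl⟩ := H2.mk_surjective _ _ _ y
  rw [ALT_apply, ALT_apply]
  congr 1
  rw [mapH2_apply, mapH2_apply]
  simp only [CMap.H2_mk]
  congr 1
  apply Subtype.ext
  change cor2 σ ⊤ V' (pp2 (MonoidHom.id G) (LinearMap.toSpanSingleton k W w.1) z.1) =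
    cor2 σ ⊤ V (pp2 (MonoidHom.id G) (LinearMap.toSpanSingleton k W w.1)
      (cor2 (trivK k G) V V' z.1))
  have hc := cor2_pp2 (ρ := trivK k G) (σ := σ) (V := V) (V' := V')
    (φ := LinearMap.toSpanSingleton k W w.1) (ALw σ V w).2 z.1
  rw [← hc]
  have hmem : pp2 (MonoidHom.id G) (LinearMap.toSpanSingleton k W w.1) z.1 ∈ X2 L V' σ :=
    (mapC L V' (ALw σ V' (Submodule.inclusion (ALfix_anti σ h) w)).2).mem2 _ z.2.1
  exact (cor_cor2 L σ h le_top hmem).symm

/-- MONOTONICITY. -/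
theorem ALT_mono (L : LevelSystem G) {V V' : Subgroup G} (h : V' ≤ V)
    [Finite (CosetsIn (⊤ : Subgroup G) V)] [Finite (CosetsIn (⊤ : Subgroup G) V')]
    (σ : Representation k G W) (tr : H2 L ⊤ σ →ₗ[k] k) (w : ALfix σ V)
    (hw : ALT L V σ tr w = 0) :
    ALT L V' σ tr (Submodule.inclusion (ALfix_anti σ h) w) = 0 := by
  have hfin : Finite (CosetsIn V V') := by
    have h1 : Nat.card (CosetsIn (⊤ : Subgroup G) V') = V'.relIndex ⊤ := rfl
    have h2 : V'.relIndex ⊤ ≠ 0 := by
      rw [← h1]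
      exact Nat.card_pos.ne'
    apply Nat.finite_of_card_ne_zero
    have h3 : Nat.card (CosetsIn V V') = V'.relIndex V := rfl
    rw [h3]
    intro h0
    apply h2
    rw [← Subgroup.relIndex_mul_relIndex V' V ⊤ h le_top, h0, zero_mul]
  apply LinearMap.ext
  intro y
  rw [ALT_cores L h σ tr w y, hw]
  rfl

theorem alpha_ALe_mono (L : LevelSystem G) {V V' : Subgroup G} (h : V' ≤ V)
    [Finite (CosetsIn (⊤ : Subgroup G) V)] [Finite (CosetsIn (⊤ : Subgroup G) V')]
    (σ : Representation k G W) (tr : H2 L ⊤ σ →ₗ[k] k) (w : ALfix σ V)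
    (hw : alpha L ⊤ σ tr (coind L V (trivK k G)) (ALe L V σ w) = 0) :
    alpha L ⊤ σ tr (coind L V' (trivK k G))
      (ALe L V' σ (Submodule.inclusion (ALfix_anti σ h) w)) = 0 :=
  (alpha_ALe_eq_zero_iff L V' σ tr _).2
    (ALT_mono L h σ tr w ((alpha_ALe_eq_zero_iff L V σ tr w).1 hw))

/-- Injectivity of `alpha` on `coind L V triv` follows from injectivity on `coind L V' triv`,
`V' ≤ V`. -/
theorem alpha_coind_injective_of_le (L : LevelSystem G) {V V' : Subgroup G} (h : V' ≤ V)
    (hV' : L.IsOpen V') (σ : Representation k G W) (tr : H2 L ⊤ σ →ₗ[k] k)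
    (hinj : Function.Injective (alpha L ⊤ σ tr (coind L V' (trivK k G)))) :
    Function.Injective (alpha L ⊤ σ tr (coind L V (trivK k G))) := by
  have hV : L.IsOpen V := by
    obtain ⟨U, hU, hle⟩ := hV'
    exact ⟨U, hU, hle.trans h⟩
  have := finite_cosetsIn_of_isOpen hV
  have := finite_cosetsIn_of_isOpen hV'
  rw [alpha_coind_injective_iff L V hV σ tr, injective_iff_map_eq_zero]
  rw [alpha_coind_injective_iff L V' hV' σ tr, injective_iff_map_eq_zero] at hinj
  intro w hw
  have h0 := hinj _ (ALT_mono L h σ tr w hw)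
  apply Subtype.ext
  exact congrArg (fun x : ALfix σ V' => (x : W)) h0

/-- A bijective equivariant map induces a bijection on `H²`. -/
theorem mapH2_bijective_of_bijective {A B : Type*} [AddCommGroup A] [Module k A] [AddCommGroup B]
    [Module k B] (L : LevelSystem G) (V : Subgroup G) {ρ : Representation k G A}
    {τ : Representation k G B} (φ : EHomOn V ρ τ) (hφ : Function.Bijective φ.1) :
    Function.Bijective (mapH2 L V ρ τ φ) := by
  let e := LinearEquiv.ofBijective φ.1 hφ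
  have hψ : e.symm.toLinearMap ∈ EHomOn V τ ρ := by
    intro v hv b
    obtain ⟨a, rfl⟩ := hφ.2 b
    rw [← φ.2 v hv a]
    change e.symm (e (ρ v a)) = ρ v (e.symm (e a))
    rw [LinearEquiv.symm_apply_apply, LinearEquiv.symm_apply_apply]
  have h1 : ∀ x, mapH2 L V τ ρ ⟨_, hψ⟩ (mapH2 L V ρ τ φ x) = x := by
    intro x
    rw [← mapH2_comp]
    have : (⟨e.symm.toLinearMap ∘ₗ φ.1, EHomOn.comp_mem hψ φ.2⟩ : EHomOn V ρ ρ)
        = ⟨LinearMap.id, EHomOn.id_mem V ρ⟩ := by
      apply Subtype.ext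
      apply LinearMap.ext
      intro a
      exact e.symm_apply_apply a
    rw [this, mapH2_id]
  have h2 : ∀ x, mapH2 L V ρ τ φ (mapH2 L V τ ρ ⟨_, hψ⟩ x) = x := by
    intro x
    rw [← mapH2_comp]
    have : (⟨φ.1 ∘ₗ e.symm.toLinearMap, EHomOn.comp_mem φ.2 hψ⟩ : EHomOn V τ τ)
        = ⟨LinearMap.id, EHomOn.id_mem V τ⟩ := by
      apply Subtype.ext
      apply LinearMap.ext
      intro a
      exact e.apply_symm_apply a
    rw [this, mapH2_id]
  exact ⟨Function.LeftInverse.injective h1, Function.RightInverse.surjective h2⟩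

/-- The case of a line `W^V = k w₀` (base case of local duality): if `(w₀)_*` is bijective on `H²(V)`
and `tr ∘ cores : H²(V, σ) → k` is bijective, then `alpha` is bijective on `coind L V triv`. -/
theorem alpha_coind_bijective_of_line (L : LevelSystem G) (V : Subgroup G) (hV : L.IsOpen V)
    [Finite (CosetsIn (⊤ : Subgroup G) V)]
    (σ : Representation k G W) (tr : H2 L ⊤ σ →ₗ[k] k) (w₀ : ALfix σ V)
    (hspan : ∀ w : ALfix σ V, ∃ c : k, w = c • w₀)
    (hw₀ : Function.Bijective (mapH2 L V (trivK k G) σ (ALw σ V w₀)))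
    (htr : Function.Bijective (tr ∘ₗ (coresC L σ ⊤ V).H2)) :
    Function.Bijective (alpha L ⊤ σ tr (coind L V (trivK k G))) := by
  rw [alpha_coind_bijective_iff L V hV σ tr]
  have hΛ : Function.Bijective (ALT L V σ tr w₀) := htr.comp hw₀
  obtain ⟨y₁, hy₁⟩ := hΛ.2 1
  constructor
  · rw [injective_iff_map_eq_zero]
    intro w hw
    obtain ⟨c, rfl⟩ := hspan w
    rw [map_smul] at hw
    have := congrArg (fun f : Module.Dual k (H2 L V (trivK k G)) => f y₁) hw
    simp only [LinearMap.smul_apply, hy₁, smul_eq_mul, mul_one, LinearMap.zero_apply] at this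
    rw [this, zero_smul]
  · intro τ
    refine ⟨τ y₁ • w₀, ?_⟩
    apply LinearMap.ext
    intro y
    have hy : y = ALT L V σ tr w₀ y • y₁ := by
      apply hΛ.1
      rw [map_smul, hy₁, smul_eq_mul, mul_one]
    rw [map_smul, LinearMap.smul_apply]
    conv_rhs => rw [hy, map_smul]
    rw [smul_eq_mul, smul_eq_mul, mul_comm]

end Fermat.Agent.PT
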