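/-
S55 (Poitou-Tate), block BASE, leaf `Card`: counting in a finite product of groups of order `p`.
Pure algebra (imports only Mathlib).
-/
import Mathlib

set_option autoImplicit false

namespace Fermat.Agent.PT.Base

section card

variable (p : ℕ) [Fact p.Prime] {ι : Type*} [Fintype ι] [DecidableEq ι] {H : ι → Type*}
  [∀ i, AddCommGroup (H i)] [∀ i, Module (ZMod p) (H i)]

omit [Fintype ι] [DecidableEq ι] in
/-- the kernel of a surjective linear form on a space with `p^n` elements. -/
theorem card_ker_of_surjective {M : Type*} [AddCommGroup M] [Module (ZMod p) M]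
    (Λ : M →ₗ[ZMod p] ZMod p) (hΛ : Function.Surjective Λ) {n : ℕ} (hn : 0 < n)
    (hM : Nat.card M = p ^ n) : Nat.card (LinearMap.ker Λ) = p ^ (n - 1) := by
  have hp : p.Prime := Fact.out
  have h1 := Submodule.card_eq_card_quotient_mul_card (LinearMap.ker Λ)
  have h2 : Nat.card (M ⧸ LinearMap.ker Λ) = p := by
    rw [Nat.card_congr (Λ.quotKerEquivOfSurjective hΛ).toEquiv, Nat.card_zmod]
  rw [hM, h2] at h1
  obtain ⟨m, rfl⟩ : ∃ m, n = m + 1 := ⟨n - 1, by omega⟩
  rw [pow_succ] at h1
  rw [Nat.add_sub_cancel]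
  exact (Nat.eq_of_mul_eq_mul_right hp.pos h1).symm

/-- The hyperplane `∑ lam i (y i) = 0` of a product of `|ι|` groups of order `p` has order `p^(|ι|-1)`.
(`Λ` is onto `ZMod p`, `|ker Λ| * p = |∏ H i| = p^|ι|`; `Nat.card_pi`, `LinearMap.quotKerEquivOfSurjective`,
`Submodule.card_eq_card_quotient_mul_card`.) -/
theorem card_hyperplane [Nonempty ι] (hH : ∀ i, Nat.card (H i) = p)
    (lam : ∀ i, H i →ₗ[ZMod p] ZMod p) (hlam : ∀ i, lam i ≠ 0) :
    Nat.card {y : ∀ i, H i // ∑ i, lam i (y i) = 0} = p ^ (Fintype.card ι - 1) := by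
  let Λ : (∀ i, H i) →ₗ[ZMod p] ZMod p := ∑ i, (lam i) ∘ₗ (LinearMap.proj i)
  have hΛ : ∀ y, Λ y = ∑ i, lam i (y i) := fun y => by
    simp [Λ, LinearMap.sum_apply]
  have hsurj : Function.Surjective Λ := by
    obtain ⟨i₀⟩ := ‹Nonempty ι›
    obtain ⟨h, hh⟩ : ∃ h, lam i₀ h ≠ 0 := by
      by_contra hcon
      push Not at hcon
      exact hlam i₀ (LinearMap.ext hcon)
    intro c
    refine ⟨(c * (lam i₀ h)⁻¹) • Pi.single i₀ h, ?_⟩
    rw [map_smul, hΛ, Finset.sum_eq_single i₀]
    · rw [Pi.single_eq_same, smul_eq_mul, inv_mul_cancel_right₀ hh]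
    · intro j _ hj
      rw [Pi.single_eq_of_ne hj, map_zero]
    · intro hi
      exact absurd (Finset.mem_univ _) hi
  have hM : Nat.card (∀ i, H i) = p ^ Fintype.card ι := by
    rw [Nat.card_pi, Finset.prod_congr rfl fun i _ => hH i, Finset.prod_const, Finset.card_univ]
  rw [← card_ker_of_surjective p Λ hsurj Fintype.card_pos hM]
  refine Nat.card_congr (Equiv.subtypeEquivRight fun y => ?_)
  rw [LinearMap.mem_ker, hΛ]

/-- Cardinality bound for the source of a map into the hyperplane.
(`|X| = |ker f| |im f|`, `im f` injects into the hyperplane.) -/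
theorem card_le_of_relation [Nonempty ι] (hH : ∀ i, Nat.card (H i) = p)
    (lam : ∀ i, H i →ₗ[ZMod p] ZMod p) (hlam : ∀ i, lam i ≠ 0)
    {X : Type*} [AddCommGroup X] [Module (ZMod p) X] (f : X →ₗ[ZMod p] ∀ i, H i)
    (hf : ∀ x, ∑ i, lam i (f x i) = 0) (N : ℕ) (hfin : Finite (LinearMap.ker f))
    (hN : Nat.card (LinearMap.ker f) ≤ N) :
    Finite X ∧ Nat.card X ≤ p ^ (Fintype.card ι - 1) * N := by
  have hp : p.Prime := Fact.out
  have hfinH : ∀ i, Finite (H i) := fun i =>
    Nat.finite_of_card_ne_zero (by rw [hH i]; exact hp.ne_zero)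
  have hfinHyp : Finite {y : ∀ i, H i // ∑ i, lam i (y i) = 0} := inferInstance
  let g : (X ⧸ LinearMap.ker f) → {y : ∀ i, H i // ∑ i, lam i (y i) = 0} := fun q =>
    ⟨(f.quotKerEquivRange q : ∀ i, H i), by
      obtain ⟨x, hx⟩ := (f.quotKerEquivRange q).2
      rw [← hx]
      exact hf x⟩
  have hg : Function.Injective g := by
    intro a b hab
    apply f.quotKerEquivRange.injective
    apply Subtype.ext
    exact congrArg (fun y : {y : ∀ i, H i // ∑ i, lam i (y i) = 0} => (y : ∀ i, H i)) hab
  have hfinQ : Finite (X ⧸ LinearMap.ker f) := Finite.of_injective g hg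
  have hcardQ : Nat.card (X ⧸ LinearMap.ker f) ≤ p ^ (Fintype.card ι - 1) := by
    rw [← card_hyperplane p hH lam hlam]
    exact Nat.card_le_card_of_injective g hg
  refine ⟨?_, ?_⟩
  · have e : X ≃ (X ⧸ (LinearMap.ker f).toAddSubgroup) × (LinearMap.ker f).toAddSubgroup :=
      AddSubgroup.addGroupEquivQuotientProdAddSubgroup
    have h1 : Finite (X ⧸ (LinearMap.ker f).toAddSubgroup) := hfinQ
    have h2 : Finite (LinearMap.ker f).toAddSubgroup := hfin
    exact Finite.of_equiv _ e.symm
  · rw [Submodule.card_eq_card_quotient_mul_card (LinearMap.ker f), mul_comm]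
    exact Nat.mul_le_mul hcardQ hN

/-- An injective map from a set with at least `N` elements to a finite set with at most `N` elements is
bijective. -/
theorem bijective_of_card {X Y Z : Type*} (f : X → Y) (hf : Function.Injective f) [Finite Y]
    [Finite Z] (g : Z → X) (hg : Function.Injective g) (h : Nat.card Y ≤ Nat.card Z) :
    Function.Bijective f := by
  have : Finite X := Finite.of_injective f hf
  exact hf.bijective_of_nat_card_le (h.trans (Nat.card_le_card_of_injective g hg))

/-- the dual of a finite `F_p`-vector space has the same cardinality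
(`Module.finite_of_finite`, `Subspace.dual_finrank_eq`, `card_eq_pow_finrank` / `Module.card_eq_pow_finrank`;
or choose a basis and use `Module.Basis.toDualEquiv`). -/
theorem card_dual {X : Type*} [AddCommGroup X] [Module (ZMod p) X] [Finite X] :
    Finite (Module.Dual (ZMod p) X) ∧ Nat.card (Module.Dual (ZMod p) X) = Nat.card X := by
  have h1 : Module.Finite (ZMod p) X := Module.Finite.of_finite
  refine ⟨Module.finite_of_finite (ZMod p), ?_⟩
  rw [Module.natCard_eq_pow_finrank (K := ZMod p) (V := Module.Dual (ZMod p) X),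
    Module.natCard_eq_pow_finrank (K := ZMod p) (V := X), Subspace.dual_finrank_eq]

omit [DecidableEq ι] in
/-- functions vanishing at one point. (`{c // c x₀ = 0} ≃ ({x // x ≠ x₀} → ZMod p)`.) -/
theorem card_vanishing (x₀ : ι) :
    Nat.card {c : ι → ZMod p // c x₀ = 0} = p ^ (Fintype.card ι - 1) := by
  have : Nonempty ι := ⟨x₀⟩
  have hsurj : Function.Surjective (LinearMap.proj x₀ : (ι → ZMod p) →ₗ[ZMod p] ZMod p) :=
    fun c => ⟨fun _ => c, rfl⟩
  have hM : Nat.card (ι → ZMod p) = p ^ Fintype.card ι := by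
    rw [Nat.card_fun, Nat.card_zmod, Nat.card_eq_fintype_card]
  rw [← card_ker_of_surjective p _ hsurj Fintype.card_pos hM]
  refine Nat.card_congr (Equiv.subtypeEquivRight fun y => ?_)
  rw [LinearMap.mem_ker, LinearMap.proj_apply]

end card

end Fermat.Agent.PT.Base
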