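/-
S55 (Poitou-Tate), block BASE: contracts consumed and produced by the block.
Namespace `Fermat.Agent.PT.Base`.
-/
import Fermat.Agent.PT.Global.Interface2
import Fermat.Agent.PT.Coh.Cores
import Fermat.Agent.PT.Bridge.GalLevels
import Fermat.Agent.PT.Duality.Global
import Fermat.Agent.PT.FA.Interface

set_option autoImplicit false

open ExtCitation
open scoped Pointwise

noncomputable section

namespace Fermat.Agent.PT.Base

variable (p : ℕ) [Fact p.Prime]

/-- the base place over `ℓ`. -/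
abbrev Pl0 (ℓ : Nat.Primes) : Place := primeLocalPlace ℓ

/-! ### contracts consumed -/

/-- (L-cores) local corestriction is onto on `H²(-, μ_p)`.  `D = V ⊓ Dec 𝒜`, `E = V' ⊓ Dec 𝒜` are the
groups of two henselian local fields `k_𝒜 ⊆ k'_𝒜`, finite over `ℚ_𝒜`. -/
def LocalCoresOntoStatement : Prop :=
  ∀ 𝒜 : Place, 𝒜.IsFin → ∀ (D E : Subgroup GQ) [Finite (CosetsIn D E)], E ≤ D →
    (∃ V, Lall.IsOpen V ∧ D = V ⊓ Dec 𝒜) → (∃ V', Lall.IsOpen V' ∧ E = V' ⊓ Dec 𝒜) →
      Function.Surjective (coresC Lall (cycRep p) D E).H2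

/- (FA) cofinal form: `FACofinalStatement p` is defined in `PT/FA/Interface.lean`. -/

/-! ### contracts produced -/

/-- reciprocity functionals over `ℚ`. -/
structure IsLam (S : Finset Nat.Primes)
    (lamQ : ∀ ℓ : ↥S, H2 Lall (⊤ ⊓ Dec (Pl0 ℓ.1)) (cycRep p) →ₗ[ZMod p] ZMod p) : Prop where
  ne_zero : ∀ ℓ, lamQ ℓ ≠ 0
  recip : ∀ x : H2 (LS S) ⊤ (cycRep p), ∑ ℓ, lamQ ℓ (loc2 S ⊤ (cycRep p) (Pl0 ℓ.1) x) = 0

/-- (λ) -/
def LamStatement : Prop :=
  ∀ S : Finset Nat.Primes, pPrime p ∈ S → ∃ lamQ, IsLam p S lamQ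

/-- The output of the block BASE: nonzero local functionals satisfying reciprocity, for which the global
hypothesis `BaseStatement` of the abstract duality theorem holds. -/
def BaseMainStatement : Prop :=
  ∀ (S : Finset Nat.Primes) (hpS : pPrime p ∈ S), ∃ lam : LocalFunctionals p S,
    (∀ ℓ, lam ℓ ≠ 0) ∧ ReciprocityStatement lam ∧ BaseStatement hpS lam

end Fermat.Agent.PT.Base

end
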