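/-
S55 (Poitou-Tate), block BASE, leaf `Conj`: conjugation of decomposition groups, open subgroups,
the base places `Pl0 ℓ`.
-/
import Fermat.Agent.PT.Base.Interface
import Fermat.Agent.PT.Global.PlaceSystem

set_option autoImplicit false

open ExtCitation
open scoped Pointwise

noncomputable section

namespace Fermat.Agent.PT.Base

/-! ### abstract lemmas on open subgroups and twists -/

section abstract

variable {k : Type*} [CommRing k] {G : Type*} [Group G] {A : Type*} [AddCommGroup A] [Module k A]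

/-- an open subgroup has finitely many cosets in any subgroup.
(`V ⊇ U`, `U` of finite index in `G`; `W / (V ∩ W)` injects into `G / V`, a quotient of `G / U`.) -/
theorem finite_cosetsIn {L : LevelSystem G} {V : Subgroup G} (hV : L.IsOpen V) (W : Subgroup G) :
    Finite (CosetsIn W V) := by
  obtain ⟨U, hU, hUV⟩ := hV
  have hfU : U.FiniteIndex := L.finiteIndex' U hU
  have hfV : V.FiniteIndex := Subgroup.finiteIndex_of_le hUV
  infer_instance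

theorem isOpen_mono {L : LevelSystem G} {V V' : Subgroup G} (hV : L.IsOpen V) (h : V ≤ V') :
    L.IsOpen V' := by
  obtain ⟨U, hU, hUV⟩ := hV
  exact ⟨U, hU, hUV.trans h⟩

theorem isOpen_inf {L : LevelSystem G} {V V' : Subgroup G} (hV : L.IsOpen V) (hV' : L.IsOpen V') :
    L.IsOpen (V ⊓ V') := by
  obtain ⟨U, hU, hUV⟩ := hV
  obtain ⟨U', hU', hUV'⟩ := hV'
  obtain ⟨W, hW, h1, h2⟩ := L.directed' U hU U' hU'
  exact ⟨W, hW, le_inf (h1.trans hUV) (h2.trans hUV')⟩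

theorem isOpen_of_le {L L' : LevelSystem G} (h : L ≤ L') {V : Subgroup G} (hV : L.IsOpen V) :
    L'.IsOpen V := by
  obtain ⟨U, hU, hUV⟩ := hV
  exact ⟨U, h hU, hUV⟩

theorem isOpen_top (L : LevelSystem G) : L.IsOpen ⊤ := by
  obtain ⟨U, hU⟩ := L.nonempty'
  exact ⟨U, hU, le_top⟩

/-- a conjugate of an open subgroup is open (levels are normal). -/
theorem isOpen_map_conj {L : LevelSystem G} {V : Subgroup G} (hV : L.IsOpen V) (c : G) :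
    L.IsOpen (V.map (MulAut.conj c).toMonoidHom) := by
  obtain ⟨U, hU, hUV⟩ := hV
  have hn := L.normal' U hU
  refine ⟨U, hU, fun u hu => ⟨c⁻¹ * u * c, hUV ?_, ?_⟩⟩
  · have := hn.conj_mem u hu c⁻¹
    simpa using this
  · show c * (c⁻¹ * u * c) * c⁻¹ = u
    group

/-- conjugation is bijective on `H²` when `W = c V c⁻¹` (inverse: `twC c⁻¹`; `tw2_mul`, `tw2` of `1`). -/
theorem twC_H2_bijective (L : LevelSystem G) (ρ : Representation k G A) {V W : Subgroup G} (c : G)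
    (h : ∀ w ∈ W, c⁻¹ * w * c ∈ V) (h' : ∀ v ∈ V, c * v * c⁻¹ ∈ W) :
    Function.Bijective (twC L ρ c h).H2 := by
  have h'' : ∀ v ∈ V, (c⁻¹)⁻¹ * v * c⁻¹ ∈ W := fun v hv => by
    rw [inv_inv]
    exact h' v hv
  have hone : ∀ f : G → G → G → A, tw2 ρ 1 f = f := fun f => by
    funext g₀ g₁ g₂
    simp
  refine Function.bijective_iff_has_inverse.mpr ⟨(twC L ρ c⁻¹ h'').H2, fun x => ?_, fun x => ?_⟩
  · obtain ⟨z, rfl⟩ := H2.mk_surjective L V ρ x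
    rw [CMap.H2_mk, CMap.H2_mk]
    refine congrArg _ (Subtype.ext ?_)
    show tw2 ρ c⁻¹ (tw2 ρ c z) = z
    rw [← tw2_mul, inv_mul_cancel, hone]
  · obtain ⟨z, rfl⟩ := H2.mk_surjective L W ρ x
    rw [CMap.H2_mk, CMap.H2_mk]
    refine congrArg _ (Subtype.ext ?_)
    show tw2 ρ c (tw2 ρ c⁻¹ z) = z
    rw [← tw2_mul, mul_inv_cancel, hone]

end abstract

/-! ### places -/

/-- `Dec (γ 𝒜) = γ Dec(𝒜) γ⁻¹`  (`Dec 𝒜` is `MulAction.stabilizer GQ 𝒜`). -/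
theorem mem_Dec_smul_iff (γ g : GQ) (𝒜 : Place) : g ∈ Dec (γ • 𝒜) ↔ γ⁻¹ * g * γ ∈ Dec 𝒜 := by
  show g • γ • 𝒜 = γ • 𝒜 ↔ (γ⁻¹ * g * γ) • 𝒜 = 𝒜
  rw [mul_smul, mul_smul, inv_smul_eq_iff]

theorem mem_Dec_iff (g : GQ) (𝒜 : Place) : g ∈ Dec 𝒜 ↔ g • 𝒜 = 𝒜 := Iff.rfl

/-- the base place lies over `ℓ` (`mem_padicPlace_iff`, `‖ℓ‖ = ℓ⁻¹ < 1`). -/
theorem liesOver_Pl0 (ℓ : Nat.Primes) : (Pl0 ℓ).LiesOverPrime (ℓ : ℕ) := by
  have : Fact (ℓ : ℕ).Prime := ⟨ℓ.2⟩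
  change ((ℓ : ℕ) : Qbar) ∈ (padicPlace (ℓ : ℕ)).nonunits
  rw [ValuationSubring.mem_nonunits_iff_or]
  right
  rw [mem_padicPlace_iff, map_inv₀, map_natCast, nnnorm_inv, ← PadicAlgCl.valuation_def,
    PadicAlgCl.valuation_p, one_div, inv_inv, not_le]
  exact_mod_cast ℓ.2.one_lt

/-- a place lies over at most one prime (`q, q' ∈ 𝔪` coprime would give `1 ∈ 𝔪`). -/
theorem liesOverPrime_unique {𝒜 : Place} {q q' : Nat.Primes} (h : 𝒜.LiesOverPrime (q : ℕ))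
    (h' : 𝒜.LiesOverPrime (q' : ℕ)) : q = q' := by
  by_contra hne
  have hcop : Nat.Coprime (q : ℕ) (q' : ℕ) :=
    (Nat.coprime_primes q.2 q'.2).2 (fun e => hne (Subtype.ext e))
  have h1 : 𝒜.valuation ((q : ℕ) : Qbar) < 1 := (ValuationSubring.mem_nonunits_iff 𝒜).1 h
  have h2 : 𝒜.valuation ((q' : ℕ) : Qbar) < 1 := (ValuationSubring.mem_nonunits_iff 𝒜).1 h'
  have hint : ∀ a : ℤ, 𝒜.valuation (a : Qbar) ≤ 1 := fun a =>
    (𝒜.valuation_le_one_iff _).2 (intCast_mem 𝒜 a)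
  have hb : (((q : ℕ) : ℤ)) * Nat.gcdA q q' + ((q' : ℕ) : ℤ) * Nat.gcdB q q' = 1 := by
    have := Nat.gcd_eq_gcd_ab q q'
    rw [hcop.gcd_eq_one] at this
    exact_mod_cast this.symm
  have hb' : ((q : ℕ) : Qbar) * ((Nat.gcdA q q' : ℤ) : Qbar)
      + ((q' : ℕ) : Qbar) * ((Nat.gcdB q q' : ℤ) : Qbar) = 1 := by
    exact_mod_cast congrArg (Int.cast : ℤ → Qbar) hb
  have h3 : 𝒜.valuation (1 : Qbar) < 1 := by
    rw [← hb']
    refine lt_of_le_of_lt (𝒜.valuation.map_add _ _) (max_lt ?_ ?_)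
    · rw [map_mul]
      exact mul_lt_one_of_lt_of_le h1 (hint _)
    · rw [map_mul]
      exact mul_lt_one_of_lt_of_le h2 (hint _)
  rw [map_one] at h3
  exact lt_irrefl _ h3

theorem liesOver_smul_Pl0 (γ : GQ) (ℓ : Nat.Primes) : (γ • Pl0 ℓ).LiesOverPrime (ℓ : ℕ) :=
  Place.liesOverPrime_smul γ _ _ (liesOver_Pl0 ℓ)

theorem isFin_smul_Pl0 (γ : GQ) (ℓ : Nat.Primes) : (γ • Pl0 ℓ).IsFin := ⟨ℓ, liesOver_smul_Pl0 γ ℓ⟩

theorem isFin_Pl0 (ℓ : Nat.Primes) : (Pl0 ℓ).IsFin := ⟨ℓ, liesOver_Pl0 ℓ⟩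

/-- every place over `ℓ` is a conjugate of the base place. -/
theorem exists_smul_Pl0_eq {ℓ : Nat.Primes} {ℬ : Place} (h : ℬ.LiesOverPrime (ℓ : ℕ)) :
    ∃ g : GQ, g • Pl0 ℓ = ℬ :=
  exists_smul_eq_of_liesOverPrime ℓ.2 _ _ (liesOver_Pl0 ℓ) h

section B2

variable {k : Type*} [CommRing k] {A : Type*} [AddCommGroup A] [Module k A]

/-- local triviality at `𝒜` and at `γ 𝒜`, `γ ∈ V`, are equivalent
(`tw2 ρ γ z = z` by `tw2_of_mem`, and `twC Lall ρ γ` maps `B2 (V ⊓ Dec 𝒜)` to `B2 (V ⊓ Dec (γ 𝒜))`). -/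
theorem mem_B2_smul {L' : LevelSystem GQ} {V : Subgroup GQ} {ρ : Representation k GQ A}
    {z : GQ → GQ → GQ → A} (hz : z ∈ X2 L' V ρ) {γ : GQ} (hγ : γ ∈ V) {𝒜 : Place}
    (h : z ∈ B2 Lall (V ⊓ Dec 𝒜) ρ) : z ∈ B2 Lall (V ⊓ Dec (γ • 𝒜)) ρ := by
  have hc : ∀ w ∈ V ⊓ Dec (γ • 𝒜), γ⁻¹ * w * γ ∈ V ⊓ Dec 𝒜 := fun w hw =>
    ⟨V.mul_mem (V.mul_mem (V.inv_mem hγ) hw.1) hγ, (mem_Dec_smul_iff γ w 𝒜).1 hw.2⟩
  have h1 := (twC Lall ρ γ hc).memB2 h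
  have h2 : tw2 ρ γ z = z := tw2_of_mem hγ hz
  have h3 : tw2 ρ γ z ∈ B2 Lall (V ⊓ Dec (γ • 𝒜)) ρ := h1
  rwa [h2] at h3

end B2

end Fermat.Agent.PT.Base

end
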