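/-
S55 (Poitou-Tate), block BASE, leaf `Frob` (step W1): Frobenius reciprocity for
`X_V = coind L V triv` (`V` open): `Hom_G(X_V, σ) = σ^V`, `φ ↦ φ (indicator of V)`.
Abstract (any `k`, `G`, `L`).
-/
import Fermat.Agent.PT.Base.Conj
import Fermat.Agent.PT.Coh.Shapiro
import Fermat.Agent.PT.Duality.Defs

set_option autoImplicit false

noncomputable section

namespace Fermat.Agent.PT.Base

variable {k : Type*} [CommRing k] {G : Type*} [Group G] {L : LevelSystem G} {V : Subgroup G}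
variable {τ : Representation k G k}
variable {B : Type*} [AddCommGroup B] [Module k B] {σ : Representation k G B}
variable {B' : Type*} [AddCommGroup B'] [Module k B'] {σ' : Representation k G B'}

open Classical in
/-- the indicator function of `V`, as an element of `X_V` (`τ` = the trivial representation on `k`).
(left `V`-invariance is clear; right invariance under a level `U ≤ V`.) -/
def ind (hV : L.IsOpen V) (hτ : ∀ g a, τ g a = a) : X0 L V τ :=
  ⟨fun x => if x ∈ V then 1 else 0, by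
    obtain ⟨U, hU, hUV⟩ := hV
    refine ⟨fun v hv x => ?_, U, hU, fun x u hu => ?_⟩
    · show (if v * x ∈ V then (1 : k) else 0) = τ v (if x ∈ V then 1 else 0)
      rw [hτ]
      simp only [Subgroup.mul_mem_cancel_left V hv]
    · show (if x * u ∈ V then (1 : k) else 0) = if x ∈ V then 1 else 0
      simp only [Subgroup.mul_mem_cancel_right V (hUV hu)]⟩

open Classical in
lemma ind_apply (hV : L.IsOpen V) (hτ : ∀ g a, τ g a = a) (x : G) :
    (ind hV hτ : G → k) x = if x ∈ V then 1 else 0 := rfl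

/-- `f ↦ f · b`, `X_V → coind L V σ`, for a `V`-fixed vector `b`. -/
def mulVec (hτ : ∀ g a, τ g a = a) (b : B) (hb : ∀ v ∈ V, σ v b = b) :
    X0 L V τ →ₗ[k] X0 L V σ where
  toFun f := ⟨fun x => (f : G → k) x • b, by
    obtain ⟨he, U, hU, hs⟩ := f.2
    refine ⟨fun v hv x => ?_, U, hU, fun x u hu => ?_⟩
    · show (f : G → k) (v * x) • b = σ v ((f : G → k) x • b)
      rw [he v hv, hτ, map_smul, hb v hv]
    · show (f : G → k) (x * u) • b = (f : G → k) x • b
      rw [hs x u hu]⟩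
  map_add' f f' := by
    ext x
    simp [add_smul]
  map_smul' c f := by
    ext x
    simp [mul_smul]

@[simp] lemma mulVec_apply_coe (hτ : ∀ g a, τ g a = a) (b : B) (hb : ∀ v ∈ V, σ v b = b)
    (f : X0 L V τ) (x : G) :
    (mulVec (L := L) hτ b hb f : G → B) x = (f : G → k) x • b := rfl

/-- the equivariant map `X_V → σ` with `ind ↦ b`: `f ↦ ∑_{q ∈ G/V} f(q⁻¹) σ(q) b`
(`coindTrace` composed with `mulVec`). -/
def frobLin (hV : L.IsOpen V) (hτ : ∀ g a, τ g a = a) (b : B) (hb : ∀ v ∈ V, σ v b = b) :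
    X0 L V τ →ₗ[k] B :=
  haveI : Finite (CosetsIn (⊤ : Subgroup G) V) := finite_cosetsIn hV ⊤
  coindTrace L V σ ∘ₗ mulVec hτ b hb

/-- (`coindTrace_mem_EHom`, and `mulVec` commutes with right translations.) -/
theorem frobLin_mem (hV : L.IsOpen V) (hτ : ∀ g a, τ g a = a) (b : B) (hb : ∀ v ∈ V, σ v b = b) :
    frobLin hV hτ b hb ∈ EHomOn ⊤ (coind L V τ) σ := by
  have : Finite (CosetsIn (⊤ : Subgroup G) V) := finite_cosetsIn hV ⊤
  intro g _ F
  have h1 : mulVec (L := L) hτ b hb (coind L V τ g F) = coind L V σ g (mulVec (L := L) hτ b hb F) := by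
    ext x
    rfl
  show coindTrace L V σ (mulVec (L := L) hτ b hb (coind L V τ g F))
    = σ g (coindTrace L V σ (mulVec (L := L) hτ b hb F))
  rw [h1]
  exact coindTrace_mem_EHom L V σ g _

/-- `frobLin` as an element of `EHomOn ⊤`. -/
def frob (hV : L.IsOpen V) (hτ : ∀ g a, τ g a = a) (b : B) (hb : ∀ v ∈ V, σ v b = b) :
    EHomOn ⊤ (coind L V τ) σ := ⟨frobLin hV hτ b hb, frobLin_mem hV hτ b hb⟩

/-- the indicator is fixed by `V`. -/
theorem ind_fixed (hV : L.IsOpen V) (hτ : ∀ g a, τ g a = a) (v : G) (hv : v ∈ V) :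
    coind L V τ v (ind hV hτ) = ind hV hτ := by
  classical
  ext x
  rw [coind_apply_coe, ind_apply, ind_apply]
  exact if_congr (Subgroup.mul_mem_cancel_right V hv) rfl rfl

/-- `frob b (ind) = b`  (`shapiro_coindTrace_apply`: only the coset of `1` contributes, and its
representative `r ∈ V` acts trivially on `b`). -/
theorem frob_ind (hV : L.IsOpen V) (hτ : ∀ g a, τ g a = a) (b : B) (hb : ∀ v ∈ V, σ v b = b) :
    (frob hV hτ b hb).1 (ind hV hτ) = b := by
  have : Finite (CosetsIn (⊤ : Subgroup G) V) := finite_cosetsIn hV ⊤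
  let _ := Fintype.ofFinite (CosetsIn (⊤ : Subgroup G) V)
  show coindTrace L V σ (mulVec (L := L) hτ b hb (ind hV hτ)) = b
  rw [shapiro_coindTrace_apply]
  obtain ⟨q₀, hq₀, huniq⟩ := (isReps_rep (⊤ : Subgroup G) V).2 1 trivial
  simp only [mul_one] at hq₀ huniq
  rw [Finset.sum_eq_single q₀]
  · rw [mulVec_apply_coe, ind_apply, if_pos hq₀, one_smul]
    exact hb _ (by simpa using V.inv_mem hq₀)
  · intro q _ hq
    have h1 : q.rep⁻¹ ∉ V := fun h => hq (huniq q h)
    rw [mulVec_apply_coe, ind_apply, if_neg h1, zero_smul, map_zero]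
  · intro h
    exact absurd (Finset.mem_univ q₀) h

/-- every `f ∈ X_V` is `∑_q f(q⁻¹) • q • ind`. -/
theorem ind_decomp (hV : L.IsOpen V) (hτ : ∀ g a, τ g a = a)
    [Fintype (CosetsIn (⊤ : Subgroup G) V)] (f : X0 L V τ) :
    f = ∑ q : CosetsIn (⊤ : Subgroup G) V,
      (f : G → k) q.rep⁻¹ • coind L V τ q.rep (ind hV hτ) := by
  ext y
  obtain ⟨q₀, hq₀, huniq⟩ := (isReps_rep (⊤ : Subgroup G) V).2 y⁻¹ trivial
  have hq₀' : y * q₀.rep ∈ V := by
    have := V.inv_mem hq₀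
    simpa using this
  rw [Submodule.coe_sum, Finset.sum_apply, Finset.sum_eq_single q₀]
  · simp only [Submodule.coe_smul, Pi.smul_apply, coind_apply_coe, ind_apply, if_pos hq₀',
      smul_eq_mul, mul_one]
    have := f.2.1 (y * q₀.rep) hq₀' q₀.rep⁻¹
    rw [mul_inv_cancel_right, hτ] at this
    exact this
  · intro q _ hq
    have hq' : y * q.rep ∉ V := fun h => hq (huniq q (by
      have := V.inv_mem h
      simpa using this))
    simp only [Submodule.coe_smul, Pi.smul_apply, coind_apply_coe, ind_apply, if_neg hq',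
      smul_zero]
  · intro h
    exact absurd (Finset.mem_univ _) h

/-- every `f ∈ X_V` is `∑_q f(q⁻¹) • q • ind`; hence an equivariant map is determined by its value at `ind`. -/
theorem ehom_ext (hV : L.IsOpen V) (hτ : ∀ g a, τ g a = a) {φ ψ : X0 L V τ →ₗ[k] B}
    (hφ : φ ∈ EHomOn ⊤ (coind L V τ) σ) (hψ : ψ ∈ EHomOn ⊤ (coind L V τ) σ)
    (h : φ (ind hV hτ) = ψ (ind hV hτ)) : φ = ψ := by
  haveI : Finite (CosetsIn (⊤ : Subgroup G) V) := finite_cosetsIn hV ⊤
  letI := Fintype.ofFinite (CosetsIn (⊤ : Subgroup G) V)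
  apply LinearMap.ext
  intro f
  rw [ind_decomp hV hτ f, map_sum, map_sum]
  refine Finset.sum_congr rfl fun q _ => ?_
  rw [map_smul, map_smul, hφ q.rep trivial, hψ q.rep trivial, h]

/-- the value at `ind` of an equivariant map is `V`-fixed. -/
theorem ehom_ind_fixed (hV : L.IsOpen V) (hτ : ∀ g a, τ g a = a) {φ : X0 L V τ →ₗ[k] B}
    (hφ : φ ∈ EHomOn ⊤ (coind L V τ) σ) (v : G) (hv : v ∈ V) :
    σ v (φ (ind hV hτ)) = φ (ind hV hτ) := by
  rw [← hφ v trivial, ind_fixed hV hτ v hv]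

/-- naturality: `ψ ∘ frob b = frob (ψ b)`. -/
theorem comp_frob (hV : L.IsOpen V) (hτ : ∀ g a, τ g a = a) (b : B) (hb : ∀ v ∈ V, σ v b = b)
    {ψ : B →ₗ[k] B'} (hψ : ψ ∈ EHomOn ⊤ σ σ') (hb' : ∀ v ∈ V, σ' v (ψ b) = ψ b) :
    ψ ∘ₗ (frob hV hτ b hb).1 = (frob hV hτ (ψ b) hb').1 := by
  refine ehom_ext hV hτ (EHomOn.comp_mem hψ (frob hV hτ b hb).2) (frob hV hτ (ψ b) hb').2 ?_
  rw [LinearMap.comp_apply, frob_ind, frob_ind]

/-- the effect of `frob b` on cochains: for `Z ∈ X2 L ⊤ X_V` with Shapiro image `z (g) = Z (g) (1)`,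
`(frob b)_* Z = cores_V^⊤ (z · b)`  (as in the proof of `coindTrace_H2`: `shapiro_coindTrace_apply`,
`shapiro_cor2_apply`, `shapiro_key2`). -/
theorem pp2_frob (hV : L.IsOpen V) (hτ : ∀ g a, τ g a = a) (b : B) (hb : ∀ v ∈ V, σ v b = b)
    [Finite (CosetsIn (⊤ : Subgroup G) V)] {Z : G → G → G → X0 L V τ}
    (hZ : Z ∈ X2 L ⊤ (coind L V τ)) :
    pp2 (MonoidHom.id G) (frob hV hτ b hb).1 Z =
      cor2 σ ⊤ V (fun g₀ g₁ g₂ => (Z g₀ g₁ g₂ : G → k) 1 • b) := by
  letI := Fintype.ofFinite (CosetsIn (⊤ : Subgroup G) V)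
  funext g₀ g₁ g₂
  rw [pp2_apply, shapiro_cor2_apply]
  show coindTrace L V σ (mulVec hτ b hb (Z g₀ g₁ g₂)) = _
  rw [shapiro_coindTrace_apply]
  refine Finset.sum_congr rfl fun q _ => ?_
  rw [mulVec_apply_coe, shapiro_key2 L V τ hZ g₀ g₁ g₂ q.rep⁻¹]

end Fermat.Agent.PT.Base

end
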