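/-
S55 (Poitou-Tate), block BASE, leaf `LinAlg`: linear algebra of hyperplanes in a finite product.
Pure algebra (imports only Mathlib).
-/
import Mathlib

set_option autoImplicit false

namespace Fermat.Agent.PT.Base

section field

variable {k : Type*} [Field k]

/-- A linear form vanishing on the kernel of `φ` is a multiple of `φ`.
(If `φ = 0` then `ψ = 0`; otherwise pick `e` with `φ e ≠ 0`, `t = ψ e / φ e`,
`x - (φ x / φ e) • e ∈ ker φ`.) -/
theorem exists_smul_eq_of_ker_le {P : Type*} [AddCommGroup P] [Module k P] (φ ψ : P →ₗ[k] k)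
    (h : ∀ x, φ x = 0 → ψ x = 0) : ∃ t : k, ψ = t • φ := by
  by_cases hφ : φ = 0
  · refine ⟨0, ?_⟩
    ext x
    rw [h x (by rw [hφ]; rfl)]
    simp
  · obtain ⟨e, he⟩ : ∃ e, φ e ≠ 0 := by
      by_contra hcon
      push Not at hcon
      exact hφ (LinearMap.ext hcon)
    refine ⟨ψ e / φ e, ?_⟩
    ext x
    have h1 : φ (x - (φ x / φ e) • e) = 0 := by
      rw [map_sub, map_smul, smul_eq_mul, div_mul_cancel₀ _ he, sub_self]
    have h2 := h _ h1
    rw [map_sub, map_smul, smul_eq_mul, sub_eq_zero] at h2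
    rw [h2, LinearMap.smul_apply, smul_eq_mul]
    field_simp

/-- Push-forward of a hyperplane along a surjection.
(If `ker C ≤ ker φ'` then `φ'` factors through `C`: `φ (C y') = φ' y'`
(`LinearMap.exists_extend`-free: use `Function.surjInv`/`Submodule.liftQ` + `quotKerEquivOfSurjective`).
Otherwise pick `n`, `C n = 0`, `φ' n ≠ 0`; then `φ = 0` works: `y = C y' = C (y' - (φ' y' / φ' n) • n)`.) -/
theorem exists_form_of_surjective_aux {P P' : Type*} [AddCommGroup P] [Module k P] [AddCommGroup P']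
    [Module k P'] (C : P' →ₗ[k] P) (hC : Function.Surjective C) (φ' : P' →ₗ[k] k) :
    ∃ φ : P →ₗ[k] k, ∀ y, φ y = 0 → ∃ y', φ' y' = 0 ∧ C y' = y := by
  by_cases hk : ∀ n, C n = 0 → φ' n = 0
  · have hle : LinearMap.ker C ≤ LinearMap.ker φ' := fun n hn => hk n hn
    refine ⟨((LinearMap.ker C).liftQ φ' hle).comp
      (C.quotKerEquivOfSurjective hC).symm.toLinearMap, fun y hy => ?_⟩
    obtain ⟨y', rfl⟩ := hC y
    refine ⟨y', ?_, rfl⟩
    have h1 : (C.quotKerEquivOfSurjective hC).symm (C y') = (LinearMap.ker C).mkQ y' := by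
      rw [LinearEquiv.symm_apply_eq]
      rfl
    rw [LinearMap.comp_apply, LinearEquiv.coe_coe, h1] at hy
    exact hy
  · push Not at hk
    obtain ⟨n, hn, hn'⟩ := hk
    refine ⟨0, fun y _ => ?_⟩
    obtain ⟨y', rfl⟩ := hC y
    refine ⟨y' - (φ' y' / φ' n) • n, ?_, ?_⟩
    · rw [map_sub, map_smul, smul_eq_mul, div_mul_cancel₀ _ hn', sub_self]
    · rw [map_sub, map_smul, hn, smul_zero, sub_zero]

/-- the same for products (stated separately: the instances on products of cohomology groups are not found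
by unification when `P`, `P'` are abstract). -/
theorem exists_form_of_surjective {ι ι' : Type*} {H : ι → Type*} {H' : ι' → Type*}
    [∀ i, AddCommGroup (H i)] [∀ i, Module k (H i)] [∀ i, AddCommGroup (H' i)]
    [∀ i, Module k (H' i)] (C : (∀ i, H' i) →ₗ[k] (∀ i, H i)) (hC : Function.Surjective C)
    (φ' : (∀ i, H' i) →ₗ[k] k) :
    ∃ φ : (∀ i, H i) →ₗ[k] k, ∀ y, φ y = 0 → ∃ y', φ' y' = 0 ∧ C y' = y :=
  exists_form_of_surjective_aux C hC φ'

variable {ι : Type*} [Fintype ι] [DecidableEq ι] {H : ι → Type*} [∀ i, AddCommGroup (H i)]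
  [∀ i, Module k (H i)]

/-- A subspace `I ⊇ ker φ` of a product of nonzero spaces which contains no vector with exactly one nonzero
coordinate is `ker φ`, and all the components of `φ` are nonzero.
Proof.  For `e ≠ 0` in `H i` put `s = Pi.single i e`; `s ∉ I` by `hI`, so `φ s ≠ 0` (this gives the second
claim).  If `y ∈ I`, `φ y ≠ 0` then `s - (φ s / φ y) • y ∈ ker φ ≤ I`, so `s ∈ I`: contradiction. -/
theorem hyperplane_of_no_single [Nonempty ι] (hH : ∀ i, Nontrivial (H i))
    (I : Submodule k (∀ i, H i)) (φ : (∀ i, H i) →ₗ[k] k) (hφ : ∀ y, φ y = 0 → y ∈ I)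
    (hI : ∀ y ∈ I, ∀ i₀, (∀ i, i ≠ i₀ → y i = 0) → y i₀ = 0) :
    (∀ y ∈ I, φ y = 0) ∧ ∀ i, φ ∘ₗ LinearMap.single k H i ≠ 0 := by
  have hnot : ∀ i, ∀ e : H i, e ≠ 0 → (Pi.single i e : ∀ i, H i) ∉ I := by
    intro i e he hmem
    have := hI _ hmem i (fun j hj => Pi.single_eq_of_ne hj e)
    rw [Pi.single_eq_same] at this
    exact he this
  have hA : ∀ i, ∀ e : H i, e ≠ 0 → φ (Pi.single i e) ≠ 0 :=
    fun i e he h0 => hnot i e he (hφ _ h0)
  refine ⟨fun y hy => ?_, fun i h0 => ?_⟩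
  · by_contra hne
    obtain ⟨i⟩ := (inferInstance : Nonempty ι)
    obtain ⟨e, he⟩ := exists_ne (0 : H i)
    apply hnot i e he
    have h1 : φ (Pi.single i e - (φ (Pi.single i e) / φ y) • y) = 0 := by
      rw [map_sub, map_smul, smul_eq_mul, div_mul_cancel₀ _ hne, sub_self]
    have h2 := I.add_mem (hφ _ h1) (I.smul_mem (φ (Pi.single i e) / φ y) hy)
    rwa [sub_add_cancel] at h2
  · obtain ⟨e, he⟩ := exists_ne (0 : H i)
    apply hA i e he
    have := congrArg (fun f => f e) h0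
    simpa using this

/-- `φ y = ∑ i, (φ ∘ single i) (y i)`. -/
theorem form_eq_sum (φ : (∀ i, H i) →ₗ[k] k) (y : ∀ i, H i) :
    φ y = ∑ i, (φ ∘ₗ LinearMap.single k H i) (y i) := by
  conv_lhs => rw [← Finset.univ_sum_single y]
  rw [map_sum]
  rfl

/-- Two relations on a subspace containing a hyperplane are proportional.
Proof.  `Λ y = ∑ lam i (y i)`, `Λc y = ∑ c i * lam i (y i)` both vanish on `ker φ'`, so `Λ = s • φ'`,
`Λc = t • φ'` (`exists_smul_eq_of_ker_le`).  Evaluate at `Pi.single i e`, `lam i e ≠ 0`: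
`lam i e = s * φ' (single i e)`, so `s ≠ 0` and `c i = t / s`. -/
theorem const_of_relations (lam : ∀ i, H i →ₗ[k] k) (hlam : ∀ i, lam i ≠ 0)
    (I : Set (∀ i, H i)) (φ' : (∀ i, H i) →ₗ[k] k) (hφ' : ∀ y, φ' y = 0 → y ∈ I)
    (hrec : ∀ y ∈ I, ∑ i, lam i (y i) = 0) (c : ι → k)
    (hc : ∀ y ∈ I, ∑ i, c i * lam i (y i) = 0) : ∀ i j, c i = c j := by
  let Λ : (∀ i, H i) →ₗ[k] k := ∑ i, (lam i) ∘ₗ LinearMap.proj i
  let Λc : (∀ i, H i) →ₗ[k] k := ∑ i, c i • ((lam i) ∘ₗ LinearMap.proj i)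
  have hΛ : ∀ y, Λ y = ∑ i, lam i (y i) := by
    intro y
    simp [Λ, LinearMap.sum_apply]
  have hΛc : ∀ y, Λc y = ∑ i, c i * lam i (y i) := by
    intro y
    simp [Λc, LinearMap.sum_apply]
  obtain ⟨s, hs⟩ := exists_smul_eq_of_ker_le φ' Λ
    (fun y hy => by rw [hΛ]; exact hrec y (hφ' y hy))
  obtain ⟨t, ht⟩ := exists_smul_eq_of_ker_le φ' Λc
    (fun y hy => by rw [hΛc]; exact hc y (hφ' y hy))
  have key : ∀ i, c i * s = t := by
    intro i
    obtain ⟨e, he⟩ : ∃ e, lam i e ≠ 0 := by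
      by_contra hcon
      push Not at hcon
      exact hlam i (LinearMap.ext hcon)
    have h1 : Λ (Pi.single i e) = lam i e := by
      rw [hΛ, Finset.sum_eq_single i]
      · rw [Pi.single_eq_same]
      · intro j _ hj
        rw [Pi.single_eq_of_ne hj, map_zero]
      · intro h; exact absurd (Finset.mem_univ i) h
    have h2 : Λc (Pi.single i e) = c i * lam i e := by
      rw [hΛc, Finset.sum_eq_single i]
      · rw [Pi.single_eq_same]
      · intro j _ hj
        rw [Pi.single_eq_of_ne hj, map_zero, mul_zero]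
      · intro h; exact absurd (Finset.mem_univ i) h
    rw [hs, LinearMap.smul_apply, smul_eq_mul] at h1
    rw [ht, LinearMap.smul_apply, smul_eq_mul, ← h1] at h2
    have h3 : φ' (Pi.single i e) ≠ 0 := by
      intro h0
      rw [h0, mul_zero] at h1
      exact he h1.symm
    have h4 : t * φ' (Pi.single i e) = (c i * s) * φ' (Pi.single i e) := by rw [h2]; ring
    exact (mul_right_cancel₀ h3 h4).symm
  intro i j
  have hs0 : s ≠ 0 := by
    rintro rfl
    obtain ⟨e, he⟩ : ∃ e, lam i e ≠ 0 := by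
      by_contra hcon
      push Not at hcon
      exact hlam i (LinearMap.ext hcon)
    apply he
    have h1 : Λ (Pi.single i e) = lam i e := by
      rw [hΛ, Finset.sum_eq_single i]
      · rw [Pi.single_eq_same]
      · intro j _ hj
        rw [Pi.single_eq_of_ne hj, map_zero]
      · intro h; exact absurd (Finset.mem_univ i) h
    rw [← h1, hs]
    simp
  exact mul_right_cancel₀ hs0 ((key i).trans (key j).symm)

end field



end Fermat.Agent.PT.Base
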