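/-
S55 (Poitou-Tate), block BASE, leaf `PSys`: place systems indexed by double cosets.

For an open `V ≤ GQ` and `ℓ ∈ S` choose `γ ℓ j` (`j : I ℓ`) such that `(γ ℓ j)⁻¹` represent
`D_ℓ \ GQ / V`, `D_ℓ = Dec (Pl0 ℓ)`.  The places of `Qbar^V` over `S` are `γ ℓ j • Pl0 ℓ`.
-/
import Fermat.Agent.PT.Base.Conj

set_option autoImplicit false

open ExtCitation
open scoped Pointwise

noncomputable section

namespace Fermat.Agent.PT.Base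

/-- double coset representatives at all `ℓ ∈ S`. -/
structure PSys (S : Finset Nat.Primes) (V : Subgroup GQ) where
  I : ↥S → Type
  fin : ∀ ℓ, Fintype (I ℓ)
  γ : ∀ ℓ, I ℓ → GQ
  reps : ∀ ℓ : ↥S, IsDoubleReps (⊤ ⊓ Dec (Pl0 ℓ.1)) ⊤ V (fun j => (γ ℓ j)⁻¹)

namespace PSys

variable {S : Finset Nat.Primes} {V : Subgroup GQ} (P : PSys S V)

instance (ℓ : ↥S) : Fintype (P.I ℓ) := P.fin ℓ

/-- the index set of the places over `S` of `Qbar^V`. -/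
abbrev Idx : Type := Σ ℓ : ↥S, P.I ℓ

/-- the group element attached to an index. -/
abbrev g (x : P.Idx) : GQ := P.γ x.1 x.2

/-- the place attached to an index. -/
abbrev pl (x : P.Idx) : Place := P.γ x.1 x.2 • Pl0 x.1.1

/-- every `y` is `d γ⁻¹ v`. -/
theorem exists_decomp (ℓ : ↥S) (y : GQ) :
    ∃ j : P.I ℓ, ∃ d ∈ Dec (Pl0 ℓ.1), ∃ v ∈ V, y = d * (P.γ ℓ j)⁻¹ * v := by
  obtain ⟨j, d, hd, h⟩ := (P.reps ℓ).2.1 y (Subgroup.mem_top y)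
  refine ⟨j, d, hd.2, _, h, ?_⟩
  group

/-- uniqueness of the double coset. -/
theorem decomp_unique (ℓ : ↥S) {j j' : P.I ℓ} {d d' v v' : GQ} (hd : d ∈ Dec (Pl0 ℓ.1))
    (hd' : d' ∈ Dec (Pl0 ℓ.1)) (hv : v ∈ V) (hv' : v' ∈ V)
    (h : d * (P.γ ℓ j)⁻¹ * v = d' * (P.γ ℓ j')⁻¹ * v') : j = j' := by
  refine (P.reps ℓ).2.2 j j' (d'⁻¹ * d)
    ⟨Subgroup.mem_top _, (Dec (Pl0 ℓ.1)).mul_mem ((Dec (Pl0 ℓ.1)).inv_mem hd') hd⟩ ?_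
  have h1 : (P.γ ℓ j')⁻¹ = d'⁻¹ * (d * (P.γ ℓ j)⁻¹ * v) * v'⁻¹ := by
    rw [h]
    group
  have h2 : ((P.γ ℓ j)⁻¹)⁻¹ * (d'⁻¹ * d)⁻¹ * (P.γ ℓ j')⁻¹ = v * v'⁻¹ := by
    rw [h1]
    group
  rw [h2]
  exact V.mul_mem hv (V.inv_mem hv')

instance (ℓ : ↥S) : Nonempty (P.I ℓ) := ⟨(P.exists_decomp ℓ 1).choose⟩

theorem isFin_pl (x : P.Idx) : (P.pl x).IsFin := isFin_smul_Pl0 _ _

/-- the places `γ ℓ j • Pl0 ℓ` form a place system of `V`.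
* `overS`: `liesOver_smul_Pl0`.
* `inj`: `v γ_i 𝒜_ℓ = γ_j 𝒜_ℓ'` forces `ℓ = ℓ'` (`liesOverPrime_unique`), `d = γ_j⁻¹ v γ_i ∈ Dec`, and
  `decomp_unique` (`1 * γ_j⁻¹ * v = d * γ_i⁻¹ * 1`).
* `surj`: `ℬ = g 𝒜_ℓ` (`exists_smul_Pl0_eq`), `g⁻¹ = d γ_j⁻¹ v`, so `v⁻¹... ` i.e. `g = v⁻¹ γ_j d⁻¹`,
  `ℬ = v⁻¹ γ_j 𝒜_ℓ`. -/
theorem isPlaceSystem : IsPlaceSystem S V P.pl := by
  refine ⟨fun x => ⟨x.1.1, x.1.2, liesOver_smul_Pl0 _ _⟩, ?_, ?_⟩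
  · rintro ⟨ℓ, i⟩ ⟨ℓ', j⟩ v hv h
    have hℓ : ℓ = ℓ' := by
      apply Subtype.ext
      have h1 : (v • P.γ ℓ i • Pl0 ℓ.1).LiesOverPrime (ℓ.1 : ℕ) :=
        Place.liesOverPrime_smul v _ _ (liesOver_smul_Pl0 _ _)
      have h2 : (v • P.γ ℓ i • Pl0 ℓ.1).LiesOverPrime (ℓ'.1 : ℕ) := by
        have h3 : v • P.γ ℓ i • Pl0 ℓ.1 = P.γ ℓ' j • Pl0 ℓ'.1 := h
        rw [h3]
        exact liesOver_smul_Pl0 _ _
      exact liesOverPrime_unique h1 h2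
    subst hℓ
    have h3 : v • P.γ ℓ i • Pl0 ℓ.1 = P.γ ℓ j • Pl0 ℓ.1 := h
    have hd : (P.γ ℓ j)⁻¹ * v * P.γ ℓ i ∈ Dec (Pl0 ℓ.1) := by
      rw [mem_Dec_iff, mul_smul, mul_smul, h3, inv_smul_smul]
    have := P.decomp_unique ℓ (j := j) (j' := i) (d := 1) (d' := (P.γ ℓ j)⁻¹ * v * P.γ ℓ i)
      (v := v) (v' := 1) (Subgroup.one_mem _) hd hv (Subgroup.one_mem _) (by group)
    rw [this]
  · rintro ℬ ⟨ℓ, hℓ, hB⟩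
    obtain ⟨g, rfl⟩ := exists_smul_Pl0_eq hB
    obtain ⟨j, d, hd, v, hv, hg⟩ := P.exists_decomp ⟨ℓ, hℓ⟩ g⁻¹
    refine ⟨⟨⟨ℓ, hℓ⟩, j⟩, v⁻¹, V.inv_mem hv, ?_⟩
    have hg' : g = v⁻¹ * P.γ ⟨ℓ, hℓ⟩ j * d⁻¹ := by
      rw [← inv_inv g, hg]
      group
    have hd' : d⁻¹ • Pl0 ℓ = Pl0 ℓ := (mem_Dec_iff _ _).mp ((Dec (Pl0 ℓ)).inv_mem hd)
    change v⁻¹ • P.γ ⟨ℓ, hℓ⟩ j • Pl0 ℓ = g • Pl0 ℓ
    conv_rhs => rw [hg', mul_smul, mul_smul, hd']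

end PSys

/-- double coset representatives exist (`D \ GQ / V` is a quotient of the finite set `GQ / V`;
take `I ℓ = DoubleCoset.Quotient D V` (or the quotient by an ad hoc setoid), `γ = (Quotient.out ·)⁻¹`). -/
theorem nonempty_PSys (S : Finset Nat.Primes) {V : Subgroup GQ} (hV : Lall.IsOpen V) :
    Nonempty (PSys S V) := by
  have hfin : ∀ D : Subgroup GQ, Finite (DoubleCoset.Quotient (D : Set GQ) (V : Set GQ)) := by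
    intro D
    have := finite_cosetsIn hV (⊤ : Subgroup GQ)
    refine Finite.of_surjective
      (fun q : CosetsIn (⊤ : Subgroup GQ) V => DoubleCoset.mk D V q.rep) ?_
    intro x
    obtain ⟨y, rfl⟩ := Quotient.exists_rep x
    obtain ⟨q, hq, -⟩ := (isReps_rep (⊤ : Subgroup GQ) V).2 y (Subgroup.mem_top y)
    refine ⟨q, ?_⟩
    change DoubleCoset.mk D V q.rep = DoubleCoset.mk D V y
    rw [DoubleCoset.eq]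
    refine ⟨1, D.one_mem, _, hq, ?_⟩
    group
  refine ⟨⟨fun ℓ => DoubleCoset.Quotient ((⊤ ⊓ Dec (Pl0 ℓ.1) : Subgroup GQ) : Set GQ) (V : Set GQ),
    fun ℓ => @Fintype.ofFinite _ (hfin _), fun ℓ q => (Quotient.out q)⁻¹, fun ℓ => ?_⟩⟩
  refine ⟨fun _ => Subgroup.mem_top _, ?_, ?_⟩
  · intro v _
    obtain ⟨h, k, hh, hk, hout⟩ := DoubleCoset.mk_out_eq_mul (⊤ ⊓ Dec (Pl0 ℓ.1)) V v
    refine ⟨DoubleCoset.mk _ _ v, h⁻¹, Subgroup.inv_mem _ hh, ?_⟩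
    rw [inv_inv, hout]
    have : (h * v * k)⁻¹ * h⁻¹⁻¹ * v = k⁻¹ := by group
    rw [this]
    exact V.inv_mem hk
  · intro i j d hd h
    rw [← DoubleCoset.out_eq' _ _ i, ← DoubleCoset.out_eq' _ _ j, DoubleCoset.eq]
    refine ⟨d, hd, _, h, ?_⟩
    group

end Fermat.Agent.PT.Base

end
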