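/-
S55 (Poitou-Tate), block BASE, leaf `LocCor`: the local maps
`H²(V ⊓ Dec (γ 𝒜)) → H²(Dec 𝒜)` (conjugation by `γ⁻¹` followed by corestriction) and the double coset
formula `loc_ℓ ∘ cores = ∑_j locCor_j ∘ loc_j`.
-/
import Fermat.Agent.PT.Base.PSys

set_option autoImplicit false

open ExtCitation
open scoped Pointwise

noncomputable section

namespace Fermat.Agent.PT.Base

variable {k : Type*} [CommRing k] {A : Type*} [AddCommGroup A] [Module k A]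
variable (ρ : Representation k GQ A)

theorem locCor_aux {V : Subgroup GQ} {𝒜 : Place} {γ : GQ} :
    ∀ w ∈ conjInf (⊤ ⊓ Dec 𝒜) V γ⁻¹, (γ⁻¹)⁻¹ * w * γ⁻¹ ∈ V ⊓ Dec (γ • 𝒜) := by
  intro w hw
  obtain ⟨h1, h2⟩ := mem_conjInf.mp hw
  refine ⟨h2, (mem_Dec_smul_iff _ _ _).mpr ?_⟩
  have : γ⁻¹ * (γ⁻¹⁻¹ * w * γ⁻¹) * γ = w := by group
  rw [this]
  exact h1.2

theorem locCor_finite {V : Subgroup GQ} (hV : Lall.IsOpen V) (𝒜 : Place) (γ : GQ) :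
    Finite (CosetsIn (⊤ ⊓ Dec 𝒜) (conjInf (⊤ ⊓ Dec 𝒜) V γ⁻¹)) :=
  haveI : Finite (CosetsIn (⊤ : Subgroup GQ) V) := finite_cosetsIn hV ⊤
  finite_cosetsIn_conjInf inf_le_left (Subgroup.mem_top _)

/-- conjugation by `γ⁻¹` followed by corestriction to `Dec 𝒜`, as a chain map. -/
def locCorC {V : Subgroup GQ} (hV : Lall.IsOpen V) (𝒜 : Place) (γ : GQ) :
    CMap Lall (V ⊓ Dec (γ • 𝒜)) ρ Lall (⊤ ⊓ Dec 𝒜) ρ :=
  haveI := locCor_finite hV 𝒜 γ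
  (coresC Lall ρ (⊤ ⊓ Dec 𝒜) (conjInf (⊤ ⊓ Dec 𝒜) V γ⁻¹)).comp (twC Lall ρ γ⁻¹ locCor_aux)

/-- `H²(V ⊓ Dec (γ 𝒜)) → H²(Dec 𝒜)`. -/
def locCor {V : Subgroup GQ} (hV : Lall.IsOpen V) (𝒜 : Place) (γ : GQ) :
    H2 Lall (V ⊓ Dec (γ • 𝒜)) ρ →ₗ[k] H2 Lall (⊤ ⊓ Dec 𝒜) ρ :=
  (locCorC ρ hV 𝒜 γ).H2

theorem locCorC_T2 {V : Subgroup GQ} (hV : Lall.IsOpen V) (𝒜 : Place) (γ : GQ)
    [Finite (CosetsIn (⊤ ⊓ Dec 𝒜) (conjInf (⊤ ⊓ Dec 𝒜) V γ⁻¹))] (z : GQ → GQ → GQ → A) :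
    (locCorC ρ hV 𝒜 γ).T2 z = cor2 ρ (⊤ ⊓ Dec 𝒜) (conjInf (⊤ ⊓ Dec 𝒜) V γ⁻¹) (tw2 ρ γ⁻¹ z) := rfl

/-- global corestriction `H²_S(V) → H²_S(ℚ)`. -/
def coresQ (S : Finset Nat.Primes) {V : Subgroup GQ} (hV : (LS S).IsOpen V) :
    H2 (LS S) V ρ →ₗ[k] H2 (LS S) ⊤ ρ :=
  haveI : Finite (CosetsIn (⊤ : Subgroup GQ) V) := finite_cosetsIn hV ⊤
  (coresC (LS S) ρ ⊤ V).H2

/-- the double coset formula (`cor2_eq_sum_double` on a representing cocycle). -/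
theorem loc2_coresQ {S : Finset Nat.Primes} {V : Subgroup GQ} (P : PSys S V)
    (hV : (LS S).IsOpen V) (hV' : Lall.IsOpen V) (ℓ : ↥S) (y : H2 (LS S) V ρ) :
    loc2 S ⊤ ρ (Pl0 ℓ.1) (coresQ ρ S hV y) =
      ∑ j : P.I ℓ, locCor ρ hV' (Pl0 ℓ.1) (P.γ ℓ j) (loc2 S V ρ (P.γ ℓ j • Pl0 ℓ.1) y) := by
  obtain ⟨z, rfl⟩ := H2.mk_surjective (LS S) V ρ y
  have hfin : Finite (CosetsIn (⊤ : Subgroup GQ) V) := finite_cosetsIn hV ⊤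
  have hfin' : ∀ j : P.I ℓ, Finite (CosetsIn (⊤ ⊓ Dec (Pl0 ℓ.1))
      (conjInf (⊤ ⊓ Dec (Pl0 ℓ.1)) V (P.γ ℓ j)⁻¹)) := fun j => locCor_finite hV' _ _
  have key := cor2_eq_sum_double (L := LS S) (ρ := ρ) (D := ⊤ ⊓ Dec (Pl0 ℓ.1)) (V := ⊤) (V' := V)
    inf_le_left le_top (P.reps ℓ) z.2.1
  simp only [loc2, coresQ, locCor, CMap.H2_mk]
  rw [← map_sum]
  congr 1
  apply Subtype.ext
  rw [AddSubmonoidClass.coe_finsetSum]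
  exact key

/-- `locCor` is onto for `μ_p` (local corestriction is onto, conjugation is bijective:
`LocalCoresOntoStatement` with `D = ⊤ ⊓ Dec 𝒜`, `E = conjInf D V γ⁻¹ = V.map (conj γ⁻¹) ⊓ Dec 𝒜`,
`isOpen_map_conj`, `twC_H2_bijective`, `CMap.H2_comp`). -/
theorem locCor_surjective (p : ℕ) [Fact p.Prime] (hCo : LocalCoresOntoStatement p)
    {V : Subgroup GQ} (hV : Lall.IsOpen V) {𝒜 : Place} (h𝒜 : 𝒜.IsFin) (γ : GQ) :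
    Function.Surjective (locCor (cycRep p) hV 𝒜 γ) := by
  have hfin := locCor_finite hV 𝒜 γ
  have h1 : Function.Surjective
      (coresC Lall (cycRep p) (⊤ ⊓ Dec 𝒜) (conjInf (⊤ ⊓ Dec 𝒜) V γ⁻¹)).H2 := by
    refine hCo 𝒜 h𝒜 _ _ ?_ ⟨⊤, isOpen_top _, rfl⟩
      ⟨V.map (MulAut.conj γ⁻¹).toMonoidHom, isOpen_map_conj hV _, ?_⟩
    · exact inf_le_left
    · unfold conjInf
      rw [top_inf_eq, inf_comm]
  have h2 : Function.Bijective (twC Lall (cycRep p) γ⁻¹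
      (locCor_aux (V := V) (𝒜 := 𝒜) (γ := γ))).H2 := by
    refine twC_H2_bijective Lall _ γ⁻¹ locCor_aux ?_
    rintro v ⟨hvV, hvD⟩
    refine mem_conjInf.mpr ⟨⟨Subgroup.mem_top _, ?_⟩, ?_⟩
    · rw [inv_inv]
      exact (mem_Dec_smul_iff _ _ _).mp hvD
    · have : γ⁻¹⁻¹ * (γ⁻¹ * v * γ⁻¹⁻¹) * γ⁻¹ = v := by group
      rw [this]
      exact hvV
  show Function.Surjective (locCorC (cycRep p) hV 𝒜 γ).H2
  unfold locCorC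
  rw [CMap.H2_comp]
  exact h1.comp h2.2

end Fermat.Agent.PT.Base

end
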