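/-
S55 (Poitou-Tate), block BASE, `Lam`: the reciprocity functionals over `ℚ` (steps R2, R3).
-/
import Fermat.Agent.PT.Base.LocCor
import Fermat.Agent.PT.Base.LinAlg

set_option autoImplicit false

open ExtCitation
open scoped Pointwise

noncomputable section

namespace Fermat.Agent.PT.Base

variable (p : ℕ) [Fact p.Prime]

/-- localisation at all the base places. -/
def locQ (S : Finset Nat.Primes) : H2 (LS S) ⊤ (cycRep p) →ₗ[ZMod p]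
    (∀ ℓ : ↥S, H2 Lall (⊤ ⊓ Dec (Pl0 ℓ.1)) (cycRep p)) :=
  LinearMap.pi fun ℓ => loc2 S ⊤ (cycRep p) (Pl0 ℓ.1)

variable {S : Finset Nat.Primes} {V : Subgroup GQ}

/-- localisation at all the places of a place system. -/
def locP (P : PSys S V) : H2 (LS S) V (cycRep p) →ₗ[ZMod p]
    (∀ x : P.Idx, H2 Lall (V ⊓ Dec (P.pl x)) (cycRep p)) :=
  LinearMap.pi fun x => loc2 S V (cycRep p) (P.pl x)

/-- the sum of the local corestrictions. -/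
def corP (P : PSys S V) (hV : Lall.IsOpen V) :
    (∀ x : P.Idx, H2 Lall (V ⊓ Dec (P.pl x)) (cycRep p)) →ₗ[ZMod p]
      (∀ ℓ : ↥S, H2 Lall (⊤ ⊓ Dec (Pl0 ℓ.1)) (cycRep p)) :=
  LinearMap.pi fun ℓ => ∑ j : P.I ℓ,
    locCor (cycRep p) hV (Pl0 ℓ.1) (P.γ ℓ j) ∘ₗ
      (LinearMap.proj (⟨ℓ, j⟩ : P.Idx) :
        (∀ x : P.Idx, H2 Lall (V ⊓ Dec (P.pl x)) (cycRep p)) →ₗ[ZMod p] _)

@[simp] lemma locQ_apply (x : H2 (LS S) ⊤ (cycRep p)) (ℓ : ↥S) :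
    locQ p S x ℓ = loc2 S ⊤ (cycRep p) (Pl0 ℓ.1) x := rfl

@[simp] lemma locP_apply (P : PSys S V) (y : H2 (LS S) V (cycRep p)) (x : P.Idx) :
    locP p P y x = loc2 S V (cycRep p) (P.pl x) y := rfl

lemma corP_apply (P : PSys S V) (hV : Lall.IsOpen V)
    (y : ∀ x : P.Idx, H2 Lall (V ⊓ Dec (P.pl x)) (cycRep p)) (ℓ : ↥S) :
    corP p P hV y ℓ = ∑ j : P.I ℓ, locCor (cycRep p) hV (Pl0 ℓ.1) (P.γ ℓ j) (y ⟨ℓ, j⟩) := by
  simp [corP, LinearMap.sum_apply]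

theorem corP_locP (P : PSys S V) (hV : (LS S).IsOpen V) (hV' : Lall.IsOpen V)
    (y : H2 (LS S) V (cycRep p)) :
    corP p P hV' (locP p P y) = locQ p S (coresQ (cycRep p) S hV y) := by
  funext ℓ
  rw [corP_apply, locQ_apply, loc2_coresQ (cycRep p) P hV hV' ℓ y]
  rfl

/-- `corP` is onto: for a target `t` choose `j₀ : P.I ℓ` and a preimage of `t ℓ` under the `j₀`-th `locCor`
(`locCor_surjective`), and put `0` at the other places. -/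
theorem corP_surjective (hCo : LocalCoresOntoStatement p) (P : PSys S V) (hV : Lall.IsOpen V) :
    Function.Surjective (corP p P hV) := by
  classical
  intro t
  let j₀ : ∀ ℓ : ↥S, P.I ℓ := fun ℓ => Classical.arbitrary _
  choose y₀ hy₀ using fun ℓ : ↥S =>
    locCor_surjective p hCo hV (isFin_Pl0 ℓ.1) (P.γ ℓ (j₀ ℓ)) (t ℓ)
  let y : ∀ x : P.Idx, H2 Lall (V ⊓ Dec (P.pl x)) (cycRep p) := fun x =>
    if h : x.2 = j₀ x.1 then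
      (show H2 Lall (V ⊓ Dec (P.γ x.1 x.2 • Pl0 x.1.1)) (cycRep p) from h ▸ y₀ x.1) else 0
  refine ⟨y, funext fun ℓ => ?_⟩
  rw [corP_apply, Finset.sum_eq_single (j₀ ℓ)]
  · have h1 : y ⟨ℓ, j₀ ℓ⟩ = y₀ ℓ := dif_pos rfl
    rw [h1, hy₀]
  · intro j _ hj
    have h1 : y ⟨ℓ, j⟩ = 0 := dif_neg hj
    rw [h1, map_zero]
  · intro h
    exact absurd (Finset.mem_univ _) h

/-- (R2) `FA` over `ℚ`. -/
theorem exists_formQ (hFA : FACofinalStatement p) (hCo : LocalCoresOntoStatement p)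
    (hpS : pPrime p ∈ S) :
    ∃ φ : (∀ ℓ : ↥S, H2 Lall (⊤ ⊓ Dec (Pl0 ℓ.1)) (cycRep p)) →ₗ[ZMod p] ZMod p,
      ∀ y, φ y = 0 → ∃ x, locQ p S x = y := by
  obtain ⟨V', -, hV', -, hφ⟩ := hFA S hpS (G1 p) (isOpen_LS_G1 hpS) le_rfl
  have hV'' : Lall.IsOpen V' := isOpen_of_le (LS_le_Lall S) hV'
  obtain ⟨P⟩ := nonempty_PSys S hV''
  obtain ⟨φ', hφ'⟩ := hφ P.Idx P.pl P.isPlaceSystem
  obtain ⟨φ, h⟩ := exists_form_of_surjective (k := ZMod p)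
    (H := fun ℓ : ↥S => H2 Lall (⊤ ⊓ Dec (Pl0 ℓ.1)) (cycRep p))
    (H' := fun x : P.Idx => H2 Lall (V' ⊓ Dec (P.pl x)) (cycRep p))
    (corP p P hV'') (corP_surjective p hCo P hV'') φ'
  refine ⟨φ, fun y hy => ?_⟩
  obtain ⟨y', hy', rfl⟩ := h y hy
  obtain ⟨x, hx⟩ := hφ' y' hy'
  refine ⟨coresQ (cycRep p) S hV' x, ?_⟩
  rw [← corP_locP p P hV' hV'']
  congr 1
  funext i
  exact hx i

/-- (R3a) a class of `H²_S(ℚ, μ_p)` which is trivial at all `ℓ ∈ S`, `ℓ ≠ ℓ₀`, is trivial at `ℓ₀`.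
Proof: `x = [z]`, `z ∈ Z2 (LS S) ⊤ ⊆ Z2 Lall ⊤`; apply `hR z _ ℓ₀.1`.  For a place `𝒜` over `q ≠ ℓ₀`:
if `q ∈ S` then `𝒜 = g • Pl0 q` (`exists_smul_Pl0_eq`), `z ∈ B2` at `Pl0 q` by `h` (`H2.mk_eq_zero_iff`)
and `mem_B2_smul`; if `q ∉ S` then `¬ 𝒜.OverS S` (`liesOverPrime_unique`) and `hNr` applies. -/
theorem no_single (hR : RPrimeStatement p) (hNr : LocalNrStatement p) (hpS : pPrime p ∈ S)
    (x : H2 (LS S) ⊤ (cycRep p)) (ℓ₀ : ↥S)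
    (h : ∀ ℓ : ↥S, ℓ ≠ ℓ₀ → loc2 S ⊤ (cycRep p) (Pl0 ℓ.1) x = 0) :
    loc2 S ⊤ (cycRep p) (Pl0 ℓ₀.1) x = 0 := by
  obtain ⟨z, rfl⟩ := H2.mk_surjective (LS S) ⊤ (cycRep p) x
  have hzall : (z : GQ → GQ → GQ → ZMod p) ∈ Z2 Lall ⊤ (cycRep p) :=
    (inclC (cycRep p) (LS_le_Lall S) le_rfl).memZ2 z.2
  have key : ∀ 𝒜 : Place, loc2 S ⊤ (cycRep p) 𝒜 (H2.mk (LS S) ⊤ (cycRep p) z) = 0 ↔
      (z : GQ → GQ → GQ → ZMod p) ∈ B2 Lall (⊤ ⊓ Dec 𝒜) (cycRep p) := by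
    intro 𝒜
    rw [loc2, CMap.H2_mk, H2.mk_eq_zero_iff]
    rfl
  rw [key]
  refine hR z hzall ℓ₀.1 ?_ _ (liesOver_Pl0 ℓ₀.1)
  intro 𝒜 q hq h𝒜
  by_cases hqS : q ∈ S
  · obtain ⟨g, rfl⟩ := exists_smul_Pl0_eq h𝒜
    refine mem_B2_smul (L' := LS S) z.2.1 (Subgroup.mem_top g) ?_
    rw [← key]
    exact h ⟨q, hqS⟩ (fun e => hq (congrArg Subtype.val e))
  · refine hNr S hpS ⊤ (isOpen_top _) 𝒜 ⟨q, h𝒜⟩ ?_ z z.2
    rintro ⟨q', hq', h'⟩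
    exact hqS (liesOverPrime_unique h𝒜 h' ▸ hq')

/-- (R3) the reciprocity functionals. -/
theorem lam_main (hR : RPrimeStatement p) (hFA : FACofinalStatement p) (hNr : LocalNrStatement p)
    (hCo : LocalCoresOntoStatement p) (hLC : LocalCardStatement p) : LamStatement p := by
  classical
  intro S hpS
  obtain ⟨φ, hφ⟩ := exists_formQ p hFA hCo hpS
  have : Nonempty ↥S := ⟨⟨_, hpS⟩⟩
  have hH : ∀ ℓ : ↥S, Nontrivial (H2 Lall (⊤ ⊓ Dec (Pl0 ℓ.1)) (cycRep p)) := by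
    intro ℓ
    have h1 := hLC ⊤ (isOpen_top _) (Pl0 ℓ.1) (isFin_Pl0 ℓ.1)
    have h2 : 1 < Nat.card (H2 Lall (⊤ ⊓ Dec (Pl0 ℓ.1)) (cycRep p)) := by
      rw [h1]; exact (Fact.out : p.Prime).one_lt
    have : Finite (H2 Lall (⊤ ⊓ Dec (Pl0 ℓ.1)) (cycRep p)) :=
      Nat.finite_of_card_ne_zero (by omega)
    exact (Finite.one_lt_card_iff_nontrivial).mp h2
  obtain ⟨h1, h2⟩ := hyperplane_of_no_single (k := ZMod p)
    (H := fun ℓ : ↥S => H2 Lall (⊤ ⊓ Dec (Pl0 ℓ.1)) (cycRep p)) hH (LinearMap.range (locQ p S)) φ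
    (fun y hy => LinearMap.mem_range.mpr (hφ y hy)) (by
      rintro _ ⟨x, rfl⟩ ℓ₀ h
      exact no_single p hR hNr hpS x ℓ₀ h)
  refine ⟨fun ℓ => φ ∘ₗ LinearMap.single (ZMod p)
    (fun ℓ : ↥S => H2 Lall (⊤ ⊓ Dec (Pl0 ℓ.1)) (cycRep p)) ℓ, h2, fun x => ?_⟩
  have := h1 (locQ p S x) ⟨x, rfl⟩
  rw [form_eq_sum (k := ZMod p) (H := fun ℓ : ↥S => H2 Lall (⊤ ⊓ Dec (Pl0 ℓ.1)) (cycRep p)) φ] at this
  exact this

end Fermat.Agent.PT.Base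

end
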