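/-
S55 (Poitou-Tate), block BASE, `Rec`: reciprocity over number fields (steps R4, R5, R6).
-/
import Fermat.Agent.PT.Base.Lam
import Fermat.Agent.PT.Base.Card

set_option autoImplicit false
set_option maxHeartbeats 400000

open ExtCitation
open scoped Pointwise

noncomputable section

namespace Fermat.Agent.PT.Base

variable (p : ℕ) [Fact p.Prime] {S : Finset Nat.Primes} {V : Subgroup GQ}

/-- (R4) the local functional at the place `P.pl x` of `Qbar^V`. -/
def lamV (P : PSys S V) (hV : Lall.IsOpen V) (lam : LocalFunctionals p S) (x : P.Idx) :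
    H2 Lall (V ⊓ Dec (P.pl x)) (cycRep p) →ₗ[ZMod p] ZMod p :=
  lam x.1 ∘ₗ locCor (cycRep p) hV (Pl0 x.1.1) (P.γ x.1 x.2)

lemma lamV_apply (P : PSys S V) (hV : Lall.IsOpen V) (lam : LocalFunctionals p S) (x : P.Idx)
    (y : H2 Lall (V ⊓ Dec (P.pl x)) (cycRep p)) :
    lamV p P hV lam x y = lam x.1 (locCor (cycRep p) hV (Pl0 x.1.1) (P.γ x.1 x.2) y) := rfl

theorem lamV_ne_zero (hCo : LocalCoresOntoStatement p) (P : PSys S V) (hV : Lall.IsOpen V)
    {lam : LocalFunctionals p S} (hlam : ∀ ℓ, lam ℓ ≠ 0) (x : P.Idx) : lamV p P hV lam x ≠ 0 := by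
  intro h
  apply hlam x.1
  apply LinearMap.ext
  intro t
  obtain ⟨y, rfl⟩ := locCor_surjective p hCo hV (isFin_Pl0 x.1.1) (P.γ x.1 x.2) t
  exact LinearMap.congr_fun h y

theorem lamV_recip (P : PSys S V) (hV : (LS S).IsOpen V) (hV' : Lall.IsOpen V)
    {lam : LocalFunctionals p S} (hrec : ReciprocityStatement lam) (y : H2 (LS S) V (cycRep p)) :
    ∑ x : P.Idx, lamV p P hV' lam x (loc2 S V (cycRep p) (P.pl x) y) = 0 := by
  rw [Fintype.sum_sigma, ← hrec (coresQ (cycRep p) S hV y)]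
  refine Finset.sum_congr rfl fun ℓ _ => ?_
  rw [loc2_coresQ (cycRep p) P hV hV' ℓ y, map_sum]
  rfl

/-- (R5) if the image of the localisation contains a hyperplane, the only relations are the multiples of the
reciprocity law. -/
theorem const_of_rel (hCo : LocalCoresOntoStatement p) (P : PSys S V) (hV : (LS S).IsOpen V)
    (hV' : Lall.IsOpen V) {lam : LocalFunctionals p S} (hlam : ∀ ℓ, lam ℓ ≠ 0)
    (hrec : ReciprocityStatement lam)
    (hFA : ∃ φ : (∀ x : P.Idx, H2 Lall (V ⊓ Dec (P.pl x)) (cycRep p)) →ₗ[ZMod p] ZMod p,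
      ∀ y, φ y = 0 → ∃ x : H2 (LS S) V (cycRep p), ∀ i, loc2 S V (cycRep p) (P.pl i) x = y i)
    (c : P.Idx → ZMod p)
    (hc : ∀ y : H2 (LS S) V (cycRep p),
      ∑ x : P.Idx, c x * lamV p P hV' lam x (loc2 S V (cycRep p) (P.pl x) y) = 0) :
    ∀ x x', c x = c x' := by
  classical
  obtain ⟨φ, hφ⟩ := hFA
  refine const_of_relations (k := ZMod p)
    (H := fun x : P.Idx => H2 Lall (V ⊓ Dec (P.pl x)) (cycRep p))
    (lamV p P hV' lam) (lamV_ne_zero p hCo P hV' hlam) (Set.range (locP p P)) φ ?_ ?_ c ?_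
  · intro y hy
    obtain ⟨x, hx⟩ := hφ y hy
    exact ⟨x, funext hx⟩
  · rintro _ ⟨y, rfl⟩
    exact lamV_recip p P hV hV' hrec y
  · rintro _ ⟨y, rfl⟩
    exact hc y

/-- the kernel of the localisation map is a quotient of `Ш²`.
Proof: the inclusion `ShaZ2 S V ρ ≤ Z2 (LS S) V ρ` induces `Sha2 → H2` (`Submodule.mapQ` of
`Submodule.inclusion inf_le_left`); its image is `ker (locP p P)`: if `y = [z]` is killed by all `loc2 _ (P.pl x)`
then `z ∈ B2 Lall (V ⊓ Dec (P.pl x))` (`H2.mk_eq_zero_iff`), and every place `ℬ` over `S` is `v • P.pl x`, `v ∈ V`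
(`P.isPlaceSystem.surj`), so `z ∈ B2 Lall (V ⊓ Dec ℬ)` by `mem_B2_smul`; hence `z ∈ ShaZ2`.
`Finite.of_surjective`, `Nat.card_le_card_of_surjective`. -/
theorem card_ker_locP (P : PSys S V) (hfin : Finite (Sha2 S V (cycRep p))) :
    Finite (LinearMap.ker (locP p P)) ∧
      Nat.card (LinearMap.ker (locP p P)) ≤ Nat.card (Sha2 S V (cycRep p)) := by
  classical
  let ι : ShaZ2 S V (cycRep p) →ₗ[ZMod p] Z2 (LS S) V (cycRep p) :=
    Submodule.inclusion inf_le_left
  let φ : Sha2 S V (cycRep p) →ₗ[ZMod p] H2 (LS S) V (cycRep p) :=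
    Submodule.mapQ _ _ ι (by
      intro z hz
      exact hz)
  have hφ : ∀ y ∈ LinearMap.ker (locP p P), ∃ x, φ x = y := by
    intro y hy
    obtain ⟨z, rfl⟩ := H2.mk_surjective (LS S) V (cycRep p) y
    have hz : (z : GQ → GQ → GQ → ZMod p) ∈ ShaZ2 S V (cycRep p) := by
      refine Submodule.mem_inf.2 ⟨z.2, ?_⟩
      rw [Submodule.mem_iInf]
      intro ℬ
      rw [Submodule.mem_iInf]
      intro hℬ
      obtain ⟨i, v, hv, rfl⟩ := P.isPlaceSystem.surj ℬ hℬ
      refine mem_B2_smul (L' := LS S) z.2.1 hv ?_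
      have h1 : loc2 S V (cycRep p) (P.pl i) (H2.mk (LS S) V (cycRep p) z) = 0 :=
        congrFun (LinearMap.mem_ker.1 hy) i
      rw [loc2, CMap.H2_mk, H2.mk_eq_zero_iff] at h1
      exact h1
    exact ⟨Submodule.Quotient.mk ⟨z, hz⟩, rfl⟩
  let g : Sha2 S V (cycRep p) → LinearMap.ker (locP p P) := fun x =>
    if h : φ x ∈ LinearMap.ker (locP p P) then ⟨φ x, h⟩ else 0
  have hg : Function.Surjective g := by
    rintro ⟨y, hy⟩
    obtain ⟨x, rfl⟩ := hφ y hy
    exact ⟨x, dif_pos hy⟩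
  exact ⟨Finite.of_surjective g hg, Nat.card_le_card_of_surjective g hg⟩

/-- (R6) the cardinality bound for `H²_S(V, μ_p)`. -/
theorem card_H2_le (hFC : FCStatement p) (hLC : LocalCardStatement p)
    (hCo : LocalCoresOntoStatement p) (hpS : pPrime p ∈ S) (P : PSys S V) (hV : (LS S).IsOpen V)
    (hV1 : V ≤ G1 p) {lam : LocalFunctionals p S} (hlam : ∀ ℓ, lam ℓ ≠ 0)
    (hrec : ReciprocityStatement lam) :
    Finite (Sha1 S V (cycRep p)) ∧ Finite (H2 (LS S) V (cycRep p)) ∧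
      Nat.card (H2 (LS S) V (cycRep p)) ≤
        p ^ (Fintype.card P.Idx - 1) * Nat.card (Sha1 S V (cycRep p)) := by
  classical
  have hV' : Lall.IsOpen V := isOpen_of_le (LS_le_Lall S) hV
  obtain ⟨f1, f2, hle⟩ := hFC S hpS V hV hV1 P.Idx P.pl P.isPlaceSystem (lamV p P hV' lam)
    (lamV_ne_zero p hCo P hV' hlam) (lamV_recip p P hV hV' hrec)
  obtain ⟨k1, k2⟩ := card_ker_locP p P f2
  have : Nonempty P.Idx := ⟨⟨⟨_, hpS⟩, Classical.arbitrary _⟩⟩
  have key := card_le_of_relation p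
    (H := fun x : P.Idx => H2 Lall (V ⊓ Dec (P.pl x)) (cycRep p)) (X := H2 (LS S) V (cycRep p))
    (fun x => hLC V hV' (P.pl x) (P.isFin_pl x)) (lamV p P hV' lam)
    (lamV_ne_zero p hCo P hV' hlam)
  have key2 := key (locP p P)
  have key3 := key2 (lamV_recip p P hV hV' hrec) (Nat.card (Sha1 S V (cycRep p)))
  have key4 := key3 k1 (k2.trans hle)
  exact ⟨f1, key4.1, key4.2⟩

end Fermat.Agent.PT.Base

end
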