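/-
S55 (Poitou-Tate), block BASE, `Key` (step W3): the formula
`tr (π_* (φ_F)_* ŷ) = ∑_x F(x) · lam_x (loc_x y)` for a `V`-fixed `F ∈ J`, `V ≤ G1` open,
`ŷ ∈ H²_S(ℚ, X_V)` with Shapiro image `y ∈ H²_S(V, F_p) = H²_S(V, μ_p)`.
-/
import Fermat.Agent.PT.Base.Rec
import Fermat.Agent.PT.Base.Frob

set_option autoImplicit false
set_option maxHeartbeats 400000

open ExtCitation
open scoped Pointwise

noncomputable section

namespace Fermat.Agent.PT.Base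

variable (p : ℕ) [Fact p.Prime] {S : Finset Nat.Primes} {V : Subgroup GQ}

/-- the carrier of `J`. -/
abbrev JT (S : Finset Nat.Primes) : Type := ∀ ℓ : ↥S, X0 (LS S) (DS S ℓ) (cycRep p)

lemma trivRep_triv : ∀ (g : GQ) (a : ZMod p), trivRep p g a = a := fun _ _ => rfl

lemma cycRep_of_mem_G1 {v : GQ} (hv : v ∈ G1 p) (a : ZMod p) : cycRep p v a = a := by
  have h : cycloChar p v = 1 := hv
  rw [cycRep_apply, h]
  simp

/-- on `V ≤ G1` the trivial and the cyclotomic coefficients agree. -/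
def tcC (L : LevelSystem GQ) (hV1 : V ≤ G1 p) : CMap L V (trivRep p) L V (cycRep p) :=
  mapC L V (φ := LinearMap.id) (fun v hv a => (cycRep_of_mem_G1 p (hV1 hv) a).symm)

/-- (inverse: the same construction in the other direction; all the maps are the identity on functions.) -/
theorem tcC_H2_bijective (L : LevelSystem GQ) (hV1 : V ≤ G1 p) :
    Function.Bijective (tcC p L hV1).H2 := by
  let T' : CMap L V (cycRep p) L V (trivRep p) :=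
    mapC L V (φ := LinearMap.id) (fun v hv a => cycRep_of_mem_G1 p (hV1 hv) a)
  rw [Function.bijective_iff_has_inverse]
  refine ⟨T'.H2, fun x => ?_, fun x => ?_⟩
  · obtain ⟨z, rfl⟩ := H2.mk_surjective L V (trivRep p) x
    rfl
  · obtain ⟨z, rfl⟩ := H2.mk_surjective L V (cycRep p) x
    rfl

/-- Shapiro followed by the identification of the coefficients. -/
def shTC (S : Finset Nat.Primes) (hV1 : V ≤ G1 p) :
    H2 (LS S) ⊤ (coind (LS S) V (trivRep p)) →ₗ[ZMod p] H2 (LS S) V (cycRep p) :=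
  (tcC p (LS S) hV1).H2 ∘ₗ (shapiroC (LS S) V (trivRep p)).H2

theorem shTC_bijective (S : Finset Nat.Primes) (hV1 : V ≤ G1 p) :
    Function.Bijective (shTC p S hV1) :=
  (tcC_H2_bijective p (LS S) hV1).comp (shapiro_bijective_H2 (LS S) V (trivRep p))

/-- the value of `F ∈ J` at the place `P.pl x`. -/
def aF (P : PSys S V) (F : JT p S) (x : P.Idx) : ZMod p :=
  cycRep p (P.γ x.1 x.2) ((F x.1 : GQ → ZMod p) (P.γ x.1 x.2)⁻¹)

/-- the pointwise computation in `key_cochain`. -/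
lemma key_pointwise (P : PSys S V) (F : JT p S) (ℓ : ↥S) (j : P.I ℓ) (a : ZMod p) :
    (evQ p S ℓ).1 (JQ p S (P.γ ℓ j)⁻¹ (a • F)) =
      aF p P F ⟨ℓ, j⟩ • cycRep p (P.γ ℓ j)⁻¹ a := by
  have h1 : (evQ p S ℓ).1 (JQ p S (P.γ ℓ j)⁻¹ (a • F)) = a * (F ℓ : GQ → ZMod p) (P.γ ℓ j)⁻¹ := by
    show ((JQ p S (P.γ ℓ j)⁻¹ (a • F)) ℓ : GQ → ZMod p) 1 = _
    rw [Jrep_apply_coe, one_mul]
    rfl
  have h2 : ((cycloChar p (P.γ ℓ j) : (ZMod p)ˣ) : ZMod p) *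
      ((cycloChar p (P.γ ℓ j)⁻¹ : (ZMod p)ˣ) : ZMod p) = 1 := by
    rw [← Units.val_mul, ← map_mul, mul_inv_cancel, map_one, Units.val_one]
  rw [h1, aF, cycRep_apply, cycRep_apply, smul_eq_mul]
  linear_combination (-(a * (F ℓ : GQ → ZMod p) (P.γ ℓ j)⁻¹)) * h2

/-- The cochain identity.  With `D = ⊤ ⊓ Dec (Pl0 ℓ)`, `c_j = (P.γ ℓ j)⁻¹`:
`cor2 J ⊤ V (z·F) = ∑_j cor2 J D (conjInf D V c_j) (tw2 J c_j (z·F))` (`cor2_eq_sum_double`, `P.reps ℓ`;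
`z·F ∈ X2 (LS S) V J` because `F` is `V`-fixed and `z ∈ X2 (LS S) V triv`);
`pp2 id ev_ℓ` commutes with `cor2 _ D _` (`cor2_pp2`, `(evQ p S ℓ).2`);
`ev_ℓ (c • (a • F)) = a * F_ℓ (c) = (cyc c⁻¹ (F_ℓ c)) * cyc c a` pointwise (`cycRep_apply`). -/
theorem key_cochain (P : PSys S V) (hV : Lall.IsOpen V) (F : JT p S)
    (hF : ∀ v ∈ V, JQ p S v F = F) {z : GQ → GQ → GQ → ZMod p} (hz : z ∈ X2 (LS S) V (trivRep p))
    [Finite (CosetsIn (⊤ : Subgroup GQ) V)] (ℓ : ↥S) :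
    pp2 (MonoidHom.id GQ) (evQ p S ℓ).1 (cor2 (JQ p S) ⊤ V (fun g₀ g₁ g₂ => z g₀ g₁ g₂ • F)) =
      ∑ j : P.I ℓ, aF p P F ⟨ℓ, j⟩ • (locCorC (cycRep p) hV (Pl0 ℓ.1) (P.γ ℓ j)).T2 z := by
  have hzF : (fun g₀ g₁ g₂ => z g₀ g₁ g₂ • F) ∈ X2 (LS S) V (JQ p S) := by
    obtain ⟨he, U, hU, hs⟩ := hz
    refine ⟨fun v hv g₀ g₁ g₂ => ?_, U, hU, fun g₀ g₁ g₂ u₀ h₀ u₁ h₁ u₂ h₂ => ?_⟩
    · show z (v * g₀) (v * g₁) (v * g₂) • F = JQ p S v (z g₀ g₁ g₂ • F)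
      rw [he v hv, map_smul, hF v hv]
      rfl
    · show z _ _ _ • F = z _ _ _ • F
      rw [hs g₀ g₁ g₂ u₀ h₀ u₁ h₁ u₂ h₂]
  have hfin' : ∀ j : P.I ℓ, Finite (CosetsIn (⊤ ⊓ Dec (Pl0 ℓ.1))
      (conjInf (⊤ ⊓ Dec (Pl0 ℓ.1)) V (P.γ ℓ j)⁻¹)) := fun j => locCor_finite hV _ _
  have key := cor2_eq_sum_double (L := LS S) (ρ := JQ p S) (D := ⊤ ⊓ Dec (Pl0 ℓ.1)) (V := ⊤)
    (V' := V) inf_le_left le_top (P.reps ℓ) hzF
  rw [key, map_sum]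
  refine Finset.sum_congr rfl fun j _ => ?_
  have h2 := cor2_pp2 (ρ := JQ p S) (σ := cycRep p) (V := ⊤ ⊓ Dec (Pl0 ℓ.1))
    (V' := conjInf (⊤ ⊓ Dec (Pl0 ℓ.1)) V (P.γ ℓ j)⁻¹) (φ := (evQ p S ℓ).1) (evQ p S ℓ).2
    (tw2 (JQ p S) (P.γ ℓ j)⁻¹ fun g₀ g₁ g₂ => z g₀ g₁ g₂ • F)
  rw [← h2, locCorC_T2, ← map_smul]
  congr 1
  funext g₀ g₁ g₂
  exact key_pointwise p P F ℓ j _

/-- The same on cohomology (take a representing cocycle `Z` of `ŷ`; `pp2_frob`, `key_cochain`; all the maps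
`loc2`, `mapH2`, `shTC`, `locCor` are computed by `CMap.H2_mk`). -/
theorem ev_loc_frob (P : PSys S V) (hV : (LS S).IsOpen V) (hV' : Lall.IsOpen V) (hV1 : V ≤ G1 p)
    (F : JT p S) (hF : ∀ v ∈ V, JQ p S v F = F) (ℓ : ↥S)
    (y : H2 (LS S) ⊤ (coind (LS S) V (trivRep p))) :
    mapH2 Lall (⊤ ⊓ Dl ℓ.1) (JQ p S) (cycRep p) (evQ p S ℓ)
      (loc2 S ⊤ (JQ p S) (primeLocalPlace ℓ.1)
        (mapH2 (LS S) ⊤ (coind (LS S) V (trivRep p)) (JQ p S)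
          (frob hV (trivRep_triv p) F hF) y)) =
      ∑ j : P.I ℓ, aF p P F ⟨ℓ, j⟩ • locCor (cycRep p) hV' (Pl0 ℓ.1) (P.γ ℓ j)
        (loc2 S V (cycRep p) (P.γ ℓ j • Pl0 ℓ.1) (shTC p S hV1 y)) := by
  obtain ⟨Z, rfl⟩ := H2.mk_surjective (LS S) ⊤ (coind (LS S) V (trivRep p)) y
  have hfin : Finite (CosetsIn (⊤ : Subgroup GQ) V) := finite_cosetsIn hV ⊤
  have h1 := pp2_frob (σ := JQ p S) hV (trivRep_triv p) F hF Z.2.1
  have hz : (fun g₀ g₁ g₂ => ((Z : GQ → GQ → GQ → X0 (LS S) V (trivRep p)) g₀ g₁ g₂ :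
      GQ → ZMod p) 1) ∈ X2 (LS S) V (trivRep p) :=
    (shapiroC (LS S) V (trivRep p)).mem2 _ Z.2.1
  have h2 := key_cochain p P hV' F hF hz ℓ
  simp only [mapH2_apply, loc2, locCor, shTC, LinearMap.comp_apply, CMap.H2_mk]
  simp_rw [← map_smul]
  rw [← map_sum]
  congr 1
  apply Subtype.ext
  rw [AddSubmonoidClass.coe_finsetSum]
  refine Eq.trans ?_ (h2.trans ?_)
  · exact congrArg (pp2 (MonoidHom.id GQ) (evQ p S ℓ).1) h1
  · refine Finset.sum_congr rfl fun j _ => ?_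
    exact (map_smul (locCorC (cycRep p) hV' (Pl0 ℓ.1) (P.γ ℓ j)).T2 (aF p P F ⟨ℓ, j⟩) _).symm

/-- (W3) the key formula. -/
theorem tr_frob (hpS : pPrime p ∈ S) {lam : LocalFunctionals p S}
    {tr : H2 (LS S) ⊤ (WQ p hpS) →ₗ[ZMod p] ZMod p} (htr : IsTrace hpS lam tr)
    (P : PSys S V) (hV : (LS S).IsOpen V) (hV' : Lall.IsOpen V) (hV1 : V ≤ G1 p)
    (F : JT p S) (hF : ∀ v ∈ V, JQ p S v F = F)
    (y : H2 (LS S) ⊤ (coind (LS S) V (trivRep p))) :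
    tr (mapH2 (LS S) ⊤ (JQ p S) (WQ p hpS) (piQ p hpS)
        (mapH2 (LS S) ⊤ (coind (LS S) V (trivRep p)) (JQ p S)
          (frob hV (trivRep_triv p) F hF) y)) =
      ∑ x : P.Idx, aF p P F x *
        lamV p P hV' lam x (loc2 S V (cycRep p) (P.pl x) (shTC p S hV1 y)) := by
  rw [htr, Fintype.sum_sigma]
  refine Finset.sum_congr rfl fun ℓ _ => ?_
  rw [ev_loc_frob p P hV hV' hV1 F hF ℓ y, map_sum]
  refine Finset.sum_congr rfl fun j _ => ?_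
  rw [map_smul, smul_eq_mul]
  rfl

end Fermat.Agent.PT.Base

end
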