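/-
S55 (Poitou-Tate), block BASE, `Inj`: injectivity of `alpha` on `X_V = coind (LS S) V triv`.
-/
import Fermat.Agent.PT.Base.Key

set_option autoImplicit false
set_option maxHeartbeats 400000

open ExtCitation
open scoped Pointwise

noncomputable section

namespace Fermat.Agent.PT.Base

variable (p : ℕ) [Fact p.Prime] {S : Finset Nat.Primes} {V : Subgroup GQ}

/-- a `V`-fixed element of `J` whose values at all the places are equal to `c₀` is the constant `c₀`.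
Proof: for `g : GQ` write `g = d γ_j⁻¹ v` (`P.exists_decomp ℓ g`); then
`F_ℓ (d γ⁻¹ v) = cyc d (F_ℓ (γ⁻¹ v))` (`(F ℓ).2.1`, `d ∈ DS S ℓ`), `F_ℓ (γ⁻¹ v) = (JQ v F)_ℓ (γ⁻¹) = F_ℓ (γ⁻¹)`,
`F_ℓ (γ⁻¹) = cyc γ⁻¹ (aF ⟨ℓ,j⟩)` and `cyc v c₀ = c₀` (`cycRep_of_mem_G1`). -/
theorem eq_Jincl_of_aF_const (hpS : pPrime p ∈ S) (P : PSys S V) (hV1 : V ≤ G1 p) (F : JT p S)
    (hF : ∀ v ∈ V, JQ p S v F = F) (c₀ : ZMod p) (h : ∀ x, aF p P F x = c₀) :
    F = Jincl (LS S) (DS S) (cycRep p) (isSmoothRep_cycRep hpS) c₀ := by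
  funext ℓ
  apply Subtype.ext
  funext g
  obtain ⟨j, d, hd, v, hv, rfl⟩ := P.exists_decomp ℓ g
  rw [Jincl_apply_coe]
  have h1 : (F ℓ : GQ → ZMod p) (d * ((P.γ ℓ j)⁻¹ * v))
      = cycRep p d ((F ℓ : GQ → ZMod p) ((P.γ ℓ j)⁻¹ * v)) := (F ℓ).2.1 d hd _
  have h2 : (F ℓ : GQ → ZMod p) ((P.γ ℓ j)⁻¹ * v) = (F ℓ : GQ → ZMod p) (P.γ ℓ j)⁻¹ := by
    have h := congrArg (fun F' : JT p S => (F' ℓ : GQ → ZMod p) (P.γ ℓ j)⁻¹) (hF v hv)
    exact h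
  have h3 : (F ℓ : GQ → ZMod p) (P.γ ℓ j)⁻¹ = cycRep p (P.γ ℓ j)⁻¹ c₀ := by
    rw [← h ⟨ℓ, j⟩, aF, ← Module.End.mul_apply, ← map_mul, inv_mul_cancel, map_one]
    rfl
  rw [mul_assoc, h1, h2, h3, map_mul, map_mul, Module.End.mul_apply, Module.End.mul_apply,
    cycRep_of_mem_G1 p (hV1 hv)]

/-- (inj) -/
theorem alpha_injective (hFA : FACofinalStatement p) (hCo : LocalCoresOntoStatement p)
    (hpS : pPrime p ∈ S) {lam : LocalFunctionals p S} (hlam : ∀ ℓ, lam ℓ ≠ 0)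
    (hrec : ReciprocityStatement lam) {tr : H2 (LS S) ⊤ (WQ p hpS) →ₗ[ZMod p] ZMod p}
    (htr : IsTrace hpS lam tr) (hV : (LS S).IsOpen V) (hV1 : V ≤ G1 p) :
    Function.Injective (alpha (LS S) ⊤ (WQ p hpS) tr (coind (LS S) V (trivRep p))) := by
  rw [injective_iff_map_eq_zero]
  intro φ hφ
  obtain ⟨F, hFw⟩ := Wpi_surjective (LS S) (DS S) (cycRep p) (isSmoothRep_cycRep hpS)
    (φ.1 (ind hV (trivRep_triv p)))
  obtain ⟨U, hU, hUF⟩ := isSmoothRep_Jrep (LS S) (DS S) (cycRep p) F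
  have hV0 : (LS S).IsOpen (V ⊓ U) := isOpen_inf hV ⟨U, hU, le_rfl⟩
  obtain ⟨V', hV'le, hV'o, -, hFA'⟩ := hFA S hpS (V ⊓ U) hV0 (inf_le_left.trans hV1)
  have hV'1 : V' ≤ G1 p := hV'le.trans (inf_le_left.trans hV1)
  have hV'L : Lall.IsOpen V' := isOpen_of_le (LS_le_Lall S) hV'o
  obtain ⟨P⟩ := nonempty_PSys S hV'L
  have hF : ∀ v ∈ V', JQ p S v F = F := fun v hv => hUF v (hV'le hv).2
  have he' : ∀ v ∈ V', coind (LS S) V (trivRep p) v (ind hV (trivRep_triv p)) =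
      ind hV (trivRep_triv p) := fun v hv => ind_fixed hV _ v (hV'le hv).1
  have hcomp : φ.1 ∘ₗ (frob hV'o (trivRep_triv p) (ind hV (trivRep_triv p)) he').1 =
      (piQ p hpS).1 ∘ₗ (frob hV'o (trivRep_triv p) F hF).1 := by
    apply ehom_ext hV'o (trivRep_triv p) (EHomOn.comp_mem φ.2 (frob hV'o _ _ he').2)
      (EHomOn.comp_mem (piQ p hpS).2 (frob hV'o _ F hF).2)
    rw [LinearMap.comp_apply, LinearMap.comp_apply, frob_ind, frob_ind]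
    exact hFw.symm
  have key : ∀ y' : H2 (LS S) ⊤ (coind (LS S) V' (trivRep p)),
      ∑ x : P.Idx, aF p P F x *
        lamV p P hV'L lam x (loc2 S V' (cycRep p) (P.pl x) (shTC p S hV'1 y')) = 0 := by
    intro y'
    rw [← tr_frob p hpS htr P hV'o hV'L hV'1 F hF y', ← mapH2_comp]
    have h1 : (⟨(piQ p hpS).1 ∘ₗ (frob hV'o (trivRep_triv p) F hF).1,
        EHomOn.comp_mem (piQ p hpS).2 (frob hV'o _ F hF).2⟩ :
          EHomOn ⊤ (coind (LS S) V' (trivRep p)) (WQ p hpS)) =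
        ⟨φ.1 ∘ₗ (frob hV'o (trivRep_triv p) (ind hV (trivRep_triv p)) he').1,
          EHomOn.comp_mem φ.2 (frob hV'o _ _ he').2⟩ := Subtype.ext hcomp.symm
    rw [h1, mapH2_comp]
    exact LinearMap.congr_fun hφ _
  have hconst := const_of_rel p hCo P hV'o hV'L hlam hrec (hFA' P.Idx P.pl P.isPlaceSystem)
    (aF p P F) (fun y => by
      obtain ⟨y', rfl⟩ := (shTC_bijective p S hV'1).2 y
      exact key y')
  have x₀ : P.Idx := ⟨⟨_, hpS⟩, Classical.arbitrary _⟩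
  have hFJ := eq_Jincl_of_aF_const p hpS P hV'1 F hF (aF p P F x₀) (fun x => hconst x x₀)
  have hw : φ.1 (ind hV (trivRep_triv p)) = 0 := by
    rw [← hFw, hFJ]
    exact (Submodule.Quotient.mk_eq_zero _).mpr ⟨_, rfl⟩
  apply Subtype.ext
  exact ehom_ext hV (trivRep_triv p) φ.2 (zero_mem _) (by simpa using hw)

end Fermat.Agent.PT.Base

end
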