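/-
S55 (Poitou-Tate), block BASE, part W-B (card): `J = ∏_{ℓ ∈ S} coind (LS S) (Dl ℓ) cyc` as a module of functions on the
places of `Qbar` over `S`.

To a function `τ : Place → ZMod p` we attach `jfun τ ℓ g = cyc g (τ (g⁻¹ • 𝒜_ℓ))`, `𝒜_ℓ = primeLocalPlace ℓ`.  It is automatically
`Dl ℓ`-equivariant; it is `(LS S)`-smooth if `τ` is invariant under a level.  The action of `GQ` on `J` (right translation)
becomes `(g τ) ℬ = cyc g (τ (g⁻¹ • ℬ))`, and `Jincl b` is the constant function `b`.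
-/
import Fermat.Agent.PT.Duality.Global
import Fermat.Agent.PT.Global.PlaceSystem
import Fermat.Agent.PT.Coh.Dict
import Fermat.Agent.PT.Base.Conj

set_option autoImplicit false
set_option linter.unusedSectionVars false

open ExtCitation
open scoped Pointwise

noncomputable section

namespace Fermat.Agent.PT.WB

variable {p : ℕ} [Fact p.Prime] {S : Finset Nat.Primes}

theorem primeLocalPlace_liesOver (ℓ : Nat.Primes) : (primeLocalPlace ℓ).LiesOverPrime (ℓ : ℕ) :=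
  Base.liesOver_Pl0 ℓ

theorem primeLocalPlace_overS (ℓ : ↥S) : Place.OverS (primeLocalPlace ℓ.1) S :=
  ⟨ℓ.1, ℓ.2, primeLocalPlace_liesOver ℓ.1⟩

/-- the function on `GQ` attached to a function on places. -/
def jfun (τ : Place → ZMod p) (ℓ : ↥S) (g : GQ) : ZMod p :=
  cycRep p g (τ (g⁻¹ • primeLocalPlace ℓ.1))

/-- `τ` is invariant under a level of `LS S`. -/
def SmoothPl (S : Finset Nat.Primes) (τ : Place → ZMod p) : Prop :=
  ∃ U ∈ LS S, ∀ u ∈ U, ∀ ℬ : Place, τ (u • ℬ) = τ ℬ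

/-- equivariance: `(d g)⁻¹ • 𝒜_ℓ = g⁻¹ • 𝒜_ℓ` for `d ∈ Dl ℓ`; smoothness: a level `U' ≤ U` on which `cycloChar` is trivial
(`exists_mem_LS_cycloChar`, `directed'`). -/
theorem jfun_mem_X0 (hpS : pPrime p ∈ S) {τ : Place → ZMod p} (hτ : SmoothPl S τ) (ℓ : ↥S) :
    jfun τ ℓ ∈ X0 (LS S) (DS S ℓ) (cycRep p) := by
  obtain ⟨U, hU, hτU⟩ := hτ
  obtain ⟨U₂, hU₂, hc⟩ := exists_mem_LS_cycloChar (p := p) hpS
  obtain ⟨U', hU', h1, h2⟩ := (LS S).directed' U hU U₂ hU₂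
  refine ⟨fun d hd g => ?_, U', hU', fun g u hu => ?_⟩
  · have hd' : d⁻¹ • primeLocalPlace ℓ.1 = primeLocalPlace ℓ.1 := by
      have h3 : d • primeLocalPlace ℓ.1 = primeLocalPlace ℓ.1 := hd
      rw [inv_smul_eq_iff, h3]
    unfold jfun
    rw [mul_inv_rev, mul_smul, hd', map_mul]
    rfl
  · unfold jfun
    rw [mul_inv_rev, mul_smul, hτU _ (U.inv_mem (h1 hu)), map_mul]
    change cycRep p g (cycRep p u _) = _
    rw [cycRep_apply p u, hc u (h2 hu), Units.val_one, one_mul]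

/-- the element of `J` attached to a smooth function on places. -/
def Jof (hpS : pPrime p ∈ S) (τ : Place → ZMod p) (hτ : SmoothPl S τ) :
    ∀ ℓ : ↥S, X0 (LS S) (DS S ℓ) (cycRep p) :=
  fun ℓ => ⟨jfun τ ℓ, jfun_mem_X0 hpS hτ ℓ⟩

@[simp] theorem Jof_apply_coe (hpS : pPrime p ∈ S) (τ : Place → ZMod p) (hτ : SmoothPl S τ) (ℓ : ↥S)
    (g : GQ) : (Jof hpS τ hτ ℓ : GQ → ZMod p) g = cycRep p g (τ (g⁻¹ • primeLocalPlace ℓ.1)) := rfl

/-- the action of `GQ` on `Jof τ`. -/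
theorem JQ_Jof_apply (hpS : pPrime p ∈ S) (τ : Place → ZMod p) (hτ : SmoothPl S τ) (g : GQ) (ℓ : ↥S)
    (y : GQ) : (JQ p S g (Jof hpS τ hτ) ℓ : GQ → ZMod p) y =
      cycRep p y (cycRep p g (τ (g⁻¹ • y⁻¹ • primeLocalPlace ℓ.1))) := by
  rw [Jrep_apply_coe, Jof_apply_coe, mul_inv_rev, mul_smul, map_mul]
  rfl

theorem smoothPl_const (b : ZMod p) : SmoothPl S (fun _ => b) := by
  obtain ⟨U, hU⟩ := (LS S).nonempty'
  exact ⟨U, hU, fun _ _ _ => rfl⟩

theorem Jincl_eq_Jof (hpS : pPrime p ∈ S) (b : ZMod p) :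
    Jincl (LS S) (DS S) (cycRep p) (isSmoothRep_cycRep hpS) b = Jof hpS (fun _ => b) (smoothPl_const b) := by
  funext ℓ
  apply Subtype.ext
  funext y
  rfl

/-- `Jof τ` determines `τ` on the places over `S` (`GQ` is transitive on the places over `ℓ`:
`exists_smul_eq_of_liesOverPrime`; `cycRep p g` is injective). -/
theorem eq_of_Jof_eq (hpS : pPrime p ∈ S) {τ τ' : Place → ZMod p} (hτ : SmoothPl S τ)
    (hτ' : SmoothPl S τ') (h : Jof hpS τ hτ = Jof hpS τ' hτ') {ℬ : Place} (hℬ : ℬ.OverS S) :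
    τ ℬ = τ' ℬ := by
  obtain ⟨q, hq, hℬq⟩ := hℬ
  obtain ⟨g, rfl⟩ := Base.exists_smul_Pl0_eq hℬq
  have h1 := congrArg (fun x : ∀ ℓ : ↥S, X0 (LS S) (DS S ℓ) (cycRep p) =>
    (x ⟨q, hq⟩ : GQ → ZMod p) g⁻¹) h
  simp only [Jof_apply_coe, inv_inv, cycRep_apply] at h1
  exact (Units.mul_right_inj _).1 h1

theorem Jincl_injective (hpS : pPrime p ∈ S) :
    Function.Injective (Jincl (LS S) (DS S) (cycRep p) (isSmoothRep_cycRep hpS)) := by
  intro a b h
  have := congrArg (Jev (LS S) (DS S) (cycRep p) ⟨pPrime p, hpS⟩) h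
  rwa [Jev_Jincl, Jev_Jincl] at this

end Fermat.Agent.PT.WB

end
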