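/-
S55 block BASE, part W-B, leaves: `J^V ≅ (ι → ZMod p)` for a place system `𝒜 : ι → Place` of `(S, V)`, and the elements of `J`
attached to the classes of `Ш¹_S(V, μ_p)`.
-/
import Fermat.Agent.PT.Base.WBDefs
import Fermat.Agent.PT.Koch.KumApi

set_option autoImplicit false
set_option linter.unusedSectionVars false

open ExtCitation
open scoped Pointwise

noncomputable section

namespace Fermat.Agent.PT.WB

variable {p : ℕ} [Fact p.Prime] {S : Finset Nat.Primes} {V : Subgroup GQ} {ι : Type} {𝒜 : ι → Place}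

open Classical in
/-- the `V`-invariant function on places with value `a i` on the orbit of `𝒜 i`. -/
def tauE (hsys : IsPlaceSystem S V 𝒜) (a : ι → ZMod p) : Place → ZMod p :=
  fun ℬ => if h : ℬ.OverS S then a (hsys.surj ℬ h).choose else 0

/-- (`IsPlaceSystem.inj`.) -/
theorem tauE_eq (hsys : IsPlaceSystem S V 𝒜) (a : ι → ZMod p) {i : ι} {v : GQ} (hv : v ∈ V) :
    tauE hsys a (v • 𝒜 i) = a i := by
  have h : (v • 𝒜 i).OverS S := (hsys.overS i).smul v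
  unfold tauE
  rw [dif_pos h]
  obtain ⟨w, hw, hweq⟩ := (hsys.surj (v • 𝒜 i) h).choose_spec
  congr 1
  refine hsys.inj _ _ (v⁻¹ * w) (V.mul_mem (V.inv_mem hv) hw) ?_
  rw [mul_smul, hweq, inv_smul_smul]

/-- (`Place.OverS.smul`, `tauE_eq`.) -/
theorem tauE_smul (hsys : IsPlaceSystem S V 𝒜) (a : ι → ZMod p) {v : GQ} (hv : v ∈ V) (ℬ : Place) :
    tauE hsys a (v • ℬ) = tauE hsys a ℬ := by
  by_cases h : ℬ.OverS S
  · obtain ⟨i, w, hw, rfl⟩ := hsys.surj ℬ h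
    rw [← mul_smul, tauE_eq hsys a (V.mul_mem hv hw), tauE_eq hsys a hw]
  · have h' : ¬ (v • ℬ).OverS S := by
      intro h2
      apply h
      have := h2.smul v⁻¹
      rwa [inv_smul_smul] at this
    unfold tauE
    rw [dif_neg h, dif_neg h']

theorem smoothPl_tauE (hsys : IsPlaceSystem S V 𝒜) (hVS : (LS S).IsOpen V) (a : ι → ZMod p) :
    SmoothPl S (tauE hsys a) := by
  obtain ⟨U, hU, hle⟩ := hVS
  exact ⟨U, hU, fun u hu ℬ => tauE_smul hsys a (hle hu) ℬ⟩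

/-- **`(ι → ZMod p) → J^V`.**  `E a = Jof (tauE hsys a)`; linear (pointwise, `dite`), fixed by `V` (`JQ_Jof_apply`,
`tauE_smul`, `cycRep_apply_of_mem_G1`); if `E a = Jincl b = Jof (const b)` then `a i = tauE a (𝒜 i) = b` (`eq_of_Jof_eq`, `tauE_eq` with
`v = 1`). -/
theorem exists_E (hpS : pPrime p ∈ S) (hVS : (LS S).IsOpen V) (hV1 : V ≤ G1 p)
    (hsys : IsPlaceSystem S V 𝒜) :
    ∃ E : (ι → ZMod p) →ₗ[ZMod p] (∀ ℓ : ↥S, X0 (LS S) (DS S ℓ) (cycRep p)),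
      (∀ a, ∀ v ∈ V, JQ p S v (E a) = E a) ∧
      (∀ a b, E a = Jincl (LS S) (DS S) (cycRep p) (isSmoothRep_cycRep hpS) b → ∀ i, a i = b) := by
  have hadd : ∀ (a b : ι → ZMod p) (ℬ : Place),
      tauE hsys (a + b) ℬ = tauE hsys a ℬ + tauE hsys b ℬ := by
    intro a b ℬ
    unfold tauE
    split_ifs
    · rfl
    · rw [add_zero]
  have hsmul : ∀ (c : ZMod p) (a : ι → ZMod p) (ℬ : Place),
      tauE hsys (c • a) ℬ = c • tauE hsys a ℬ := by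
    intro c a ℬ
    unfold tauE
    split_ifs
    · rfl
    · rw [smul_zero]
  refine ⟨{ toFun := fun a => Jof hpS (tauE hsys a) (smoothPl_tauE hsys hVS a)
            map_add' := ?_
            map_smul' := ?_ }, ?_, ?_⟩
  · intro a b
    funext ℓ
    apply Subtype.ext
    funext g
    rw [Pi.add_apply, Submodule.coe_add, Pi.add_apply, Jof_apply_coe, Jof_apply_coe,
      Jof_apply_coe, hadd, map_add]
  · intro c a
    funext ℓ
    apply Subtype.ext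
    funext g
    rw [RingHom.id_apply, Pi.smul_apply, Submodule.coe_smul, Pi.smul_apply, Jof_apply_coe,
      Jof_apply_coe, hsmul, map_smul]
  · intro a v hv
    funext ℓ
    apply Subtype.ext
    funext y
    show (JQ p S v (Jof hpS (tauE hsys a) (smoothPl_tauE hsys hVS a)) ℓ : GQ → ZMod p) y
      = (Jof hpS (tauE hsys a) (smoothPl_tauE hsys hVS a) ℓ : GQ → ZMod p) y
    rw [JQ_Jof_apply, Jof_apply_coe, Koch.cycRep_apply_of_mem_G1 (hV1 hv),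
      tauE_smul hsys a (V.inv_mem hv)]
  · intro a b hab i
    have hab' : Jof hpS (tauE hsys a) (smoothPl_tauE hsys hVS a)
        = Jof hpS (fun _ => b) (smoothPl_const b) := by
      rw [← Jincl_eq_Jof]
      exact hab
    have h1 := eq_of_Jof_eq hpS _ _ hab' (hsys.overS i)
    have h2 := tauE_eq hsys a (i := i) V.one_mem
    rw [one_smul] at h2
    rw [← h2, h1]

open Classical in
/-- the function on places attached to `x ∈ ShaZ1`: `- x 1 v` at `ℬ = v • 𝒜 i`, `v ∈ V`. -/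
def tauX (hsys : IsPlaceSystem S V 𝒜) (x : GQ → GQ → ZMod p) : Place → ZMod p :=
  fun ℬ => if h : ℬ.OverS S then - x 1 (hsys.surj ℬ h).choose_spec.choose else 0

theorem WBFix_tauX_spec (hsys : IsPlaceSystem S V 𝒜) (x : GQ → GQ → ZMod p) {ℬ : Place}
    (hℬ : ℬ.OverS S) : ∃ (i : ι) (v : GQ), v ∈ V ∧ v • 𝒜 i = ℬ ∧ tauX hsys x ℬ = - x 1 v := by
  refine ⟨(hsys.surj ℬ hℬ).choose, (hsys.surj ℬ hℬ).choose_spec.choose,
    (hsys.surj ℬ hℬ).choose_spec.choose_spec.1, (hsys.surj ℬ hℬ).choose_spec.choose_spec.2, ?_⟩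
  unfold tauX
  rw [dif_pos hℬ]

theorem WBFix_tauX_of_not (hsys : IsPlaceSystem S V 𝒜) (x : GQ → GQ → ZMod p) {ℬ : Place}
    (hℬ : ¬ ℬ.OverS S) : tauX hsys x ℬ = 0 := by
  unfold tauX
  rw [dif_neg hℬ]

theorem WBFix_loc {x : GQ → GQ → ZMod p} (hx : x ∈ ShaZ1 S V (cycRep p)) {ℬ : Place}
    (hℬ : ℬ.OverS S) : x ∈ B1 Lall (V ⊓ Dec ℬ) (cycRep p) := by
  have h : x ∈ ⨅ (𝒜 : Place) (_ : 𝒜.OverS S), B1 Lall (V ⊓ Dec 𝒜) (cycRep p) := hx.2
  rw [Submodule.mem_iInf] at h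
  have h' := h ℬ
  rw [Submodule.mem_iInf] at h'
  exact h' hℬ

/-- independence of the choice: if `v • 𝒜 i = v' • 𝒜 i'` (`v, v' ∈ V`) then `i = i'` and `v⁻¹ v' ∈ V ⊓ Dec (𝒜 i)`, where `x 1 · ` vanishes
(`x ∈ B1 Lall (V ⊓ Dec (𝒜 i)) cyc`, `mem_B1_iff_of_le_G1`), and `x 1 ·` is additive on `V` (`one_mul_of_le_G1`). -/
theorem tauX_eq (hsys : IsPlaceSystem S V 𝒜) (hV1 : V ≤ G1 p) {x : GQ → GQ → ZMod p}
    (hx : x ∈ ShaZ1 S V (cycRep p)) {i : ι} {v : GQ} (hv : v ∈ V) :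
    tauX hsys x (v • 𝒜 i) = - x 1 v := by
  obtain ⟨i', v', hv', h2, h3⟩ := WBFix_tauX_spec hsys x ((hsys.overS i).smul v)
  have hZ : x ∈ Z1 (LS S) V (cycRep p) := hx.1
  have h4 : (v⁻¹ * v') • 𝒜 i' = 𝒜 i := by
    rw [mul_smul, h2, inv_smul_smul]
  have hi : i' = i := hsys.inj i' i _ (V.mul_mem (V.inv_mem hv) hv') h4
  subst hi
  have hloc := WBFix_loc hx (hsys.overS i')
  have hmem : v⁻¹ * v' ∈ V ⊓ Dec (𝒜 i') :=
    ⟨V.mul_mem (V.inv_mem hv) hv', MulAction.mem_stabilizer_iff.2 h4⟩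
  have h5 := (Koch.mem_B1_iff_of_le_G1 (inf_le_left.trans hV1) (B1_le_Z1 hloc)).1 hloc _ hmem
  have h6 := Koch.one_mul_of_le_G1 hV1 hZ v hv (v⁻¹ * v')
  rw [mul_inv_cancel_left, h5, add_zero] at h6
  rw [h3, h6]

theorem tauX_smul (hsys : IsPlaceSystem S V 𝒜) (hV1 : V ≤ G1 p) {x : GQ → GQ → ZMod p}
    (hx : x ∈ ShaZ1 S V (cycRep p)) {v : GQ} (hv : v ∈ V) {ℬ : Place} (hℬ : ℬ.OverS S) :
    tauX hsys x (v⁻¹ • ℬ) = tauX hsys x ℬ + x 1 v := by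
  obtain ⟨i, w, hw, rfl⟩ := hsys.surj ℬ hℬ
  have hZ : x ∈ Z1 (LS S) V (cycRep p) := hx.1
  rw [← mul_smul, tauX_eq hsys hV1 hx (V.mul_mem (V.inv_mem hv) hw), tauX_eq hsys hV1 hx hw]
  have h1 := Koch.one_mul_of_le_G1 hV1 hZ v⁻¹ (V.inv_mem hv) w
  have h2 := Koch.one_mul_of_le_G1 hV1 hZ v⁻¹ (V.inv_mem hv) v
  rw [inv_mul_cancel, Koch.one_one_eq_zero hZ] at h2
  rw [h1]
  linear_combination h2

/-- invariance under a level `U ≤ V` of `x` (`x 1 u = x 1 (1 * u) = x 1 1 = 0`). -/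
theorem smoothPl_tauX (hsys : IsPlaceSystem S V 𝒜) (hVS : (LS S).IsOpen V) (hV1 : V ≤ G1 p)
    {x : GQ → GQ → ZMod p} (hx : x ∈ ShaZ1 S V (cycRep p)) : SmoothPl S (tauX hsys x) := by
  have hZ : x ∈ Z1 (LS S) V (cycRep p) := hx.1
  obtain ⟨U₁, hU₁, hle⟩ := hVS
  obtain ⟨U₂, hU₂, hs⟩ := hZ.1.2
  obtain ⟨U, hU, h1, h2⟩ := (LS S).directed' U₁ hU₁ U₂ hU₂
  refine ⟨U, hU, fun u hu ℬ => ?_⟩
  by_cases hℬ : ℬ.OverS S
  · have h3 := tauX_smul hsys hV1 hx (V.inv_mem (hle (h1 hu))) hℬ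
    rw [inv_inv] at h3
    have h4 := hs 1 1 1 U₂.one_mem u⁻¹ (U₂.inv_mem (h2 hu))
    rw [mul_one, one_mul, Koch.one_one_eq_zero hZ] at h4
    rw [h3, h4, add_zero]
  · have hℬ' : ¬ (u • ℬ).OverS S := by
      intro h
      apply hℬ
      have := h.smul u⁻¹
      rwa [inv_smul_smul] at this
    rw [WBFix_tauX_of_not hsys x hℬ, WBFix_tauX_of_not hsys x hℬ']

/-- **The connecting map, backwards.**  `F = Jof (tauX hsys x)` (`JQ_Jof_apply`, `tauX_smul`, `cycRep_apply_of_mem_G1`,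
`Jincl_apply_coe`). -/
theorem exists_F (hpS : pPrime p ∈ S) (hVS : (LS S).IsOpen V) (hV1 : V ≤ G1 p)
    (hsys : IsPlaceSystem S V 𝒜) {x : GQ → GQ → ZMod p} (hx : x ∈ ShaZ1 S V (cycRep p)) :
    ∃ F : ∀ ℓ : ↥S, X0 (LS S) (DS S ℓ) (cycRep p), ∀ v ∈ V,
      JQ p S v F - F = Jincl (LS S) (DS S) (cycRep p) (isSmoothRep_cycRep hpS) (x 1 v) := by
  refine ⟨Jof hpS (tauX hsys x) (smoothPl_tauX hsys hVS hV1 hx), fun v hv => ?_⟩
  funext ℓ
  apply Subtype.ext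
  funext y
  have h1 := JQ_Jof_apply hpS (tauX hsys x) (smoothPl_tauX hsys hVS hV1 hx) v ℓ y
  have h2 := tauX_smul hsys hV1 hx hv ((primeLocalPlace_overS ℓ).smul y⁻¹)
  show (JQ p S v (Jof hpS (tauX hsys x) (smoothPl_tauX hsys hVS hV1 hx)) ℓ : GQ → ZMod p) y -
      (Jof hpS (tauX hsys x) (smoothPl_tauX hsys hVS hV1 hx) ℓ : GQ → ZMod p) y = _
  rw [h1, Jof_apply_coe, Jincl_apply_coe, Koch.cycRep_apply_of_mem_G1 (hV1 hv), h2, map_add,
    add_sub_cancel_left]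

end Fermat.Agent.PT.WB

end
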