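/-
S55 block BASE, part W-B, assembly (card): `|W^V| ≥ p^(|ι|-1) · |Ш¹_S(V, μ_p)|`
(exact sequence `0 → μ_p → J^V → W^V → Ш¹_S(V, μ_p) → 0`).
-/
import Fermat.Agent.PT.Base.WBFix

set_option autoImplicit false
set_option linter.unusedSectionVars false

open ExtCitation
open scoped Pointwise

noncomputable section

namespace Fermat.Agent.PT.WB

variable {p : ℕ} [Fact p.Prime] {S : Finset Nat.Primes} {V : Subgroup GQ} {ι : Type} {𝒜 : ι → Place}

/-- **(card).** -/
theorem card_invOf_W_ge (hpS : pPrime p ∈ S) (hVS : (LS S).IsOpen V) (hV1 : V ≤ G1 p) [Fintype ι]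
    (hsys : IsPlaceSystem S V 𝒜) [Finite ↥(invOf V (WQ p hpS))] :
    p ^ (Fintype.card ι - 1) * Nat.card (Sha1 S V (cycRep p)) ≤
      Nat.card ↥(invOf V (WQ p hpS)) := by
  classical
  obtain ⟨E, hEfix, hEinj⟩ := exists_E hpS hVS hV1 hsys
  obtain ⟨i0, -⟩ := hsys.surj _ (primeLocalPlace_overS (S := S) ⟨pPrime p, hpS⟩)
  have hF : ∀ s : Sha1 S V (cycRep p), ∃ F : ∀ ℓ : ↥S, X0 (LS S) (DS S ℓ) (cycRep p), ∀ v ∈ V,
      JQ p S v F - F = Jincl (LS S) (DS S) (cycRep p) (isSmoothRep_cycRep hpS)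
        (((Quotient.out s : ShaZ1 S V (cycRep p)) : GQ → GQ → ZMod p) 1 v) :=
    fun s => exists_F hpS hVS hV1 hsys (Quotient.out s).2
  choose F hF using hF
  set inc := Jincl (LS S) (DS S) (cycRep p) (isSmoothRep_cycRep hpS) with hinc
  set π := Wpi (LS S) (DS S) (cycRep p) (isSmoothRep_cycRep hpS) with hπ
  have hπinc : ∀ b, π (inc b) = 0 := by
    intro b
    have : inc b ∈ LinearMap.ker π := by
      rw [hπ, ker_Wpi]
      exact ⟨b, rfl⟩
    exact this
  have hincfix : ∀ v ∈ V, ∀ b, JQ p S v (inc b) = inc b := by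
    intro v hv b
    have h1 := Jincl_mem (LS S) (DS S) (cycRep p) (isSmoothRep_cycRep hpS) ⊤ v trivial b
    rw [Koch.cycRep_apply_of_mem_G1 (hV1 hv)] at h1
    exact h1.symm
  let ext : ({i // i ≠ i0} → ZMod p) → (ι → ZMod p) :=
    fun a i => if h : i ≠ i0 then a ⟨i, h⟩ else 0
  have hfix : ∀ x : ({i // i ≠ i0} → ZMod p) × Sha1 S V (cycRep p),
      π (F x.2 + E (ext x.1)) ∈ invOf V (WQ p hpS) := by
    intro x v hv
    have h1 : WQ p hpS v (π (F x.2 + E (ext x.1))) = π (JQ p S v (F x.2 + E (ext x.1))) := rfl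
    rw [h1, map_add, hEfix _ v hv]
    have h2 : JQ p S v (F x.2) = F x.2 +
        inc (((Quotient.out x.2 : ShaZ1 S V (cycRep p)) : GQ → GQ → ZMod p) 1 v) := by
      rw [← hF x.2 v hv]; abel
    rw [h2, map_add, map_add, map_add, hπinc, add_zero]
  let Φ : ({i // i ≠ i0} → ZMod p) × Sha1 S V (cycRep p) → ↥(invOf V (WQ p hpS)) :=
    fun x => ⟨π (F x.2 + E (ext x.1)), hfix x⟩
  have hinj : Function.Injective Φ := by
    rintro ⟨a, s⟩ ⟨a', s'⟩ h
    have h0 : π (F s + E (ext a)) = π (F s' + E (ext a')) := congrArg Subtype.val h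
    have h1 : (F s + E (ext a)) - (F s' + E (ext a')) ∈ LinearMap.ker π := by
      rw [LinearMap.mem_ker, map_sub, h0, sub_self]
    rw [hπ, ker_Wpi] at h1
    obtain ⟨b, hb⟩ := h1
    -- the classes agree
    have hxs : ∀ v ∈ V, ((Quotient.out s : ShaZ1 S V (cycRep p)) : GQ → GQ → ZMod p) 1 v =
        ((Quotient.out s' : ShaZ1 S V (cycRep p)) : GQ → GQ → ZMod p) 1 v := by
      intro v hv
      have h2 := congrArg (fun y => JQ p S v y - y) hb
      simp only [map_sub, map_add, hEfix _ v hv] at h2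
      have h2' : JQ p S v (inc b) - inc b = 0 := by rw [hincfix v hv, sub_self]
      rw [← hinc, h2'] at h2
      have h3 : (JQ p S v (F s) - F s) - (JQ p S v (F s') - F s') = 0 := by
        rw [h2]; abel
      rw [hF s v hv, hF s' v hv, ← map_sub] at h3
      have h4 := Jincl_injective hpS (h3.trans (map_zero _).symm)
      exact sub_eq_zero.mp h4
    have hss : s = s' := by
      have hz : ((Quotient.out s : ShaZ1 S V (cycRep p)) : GQ → GQ → ZMod p) -
          ((Quotient.out s' : ShaZ1 S V (cycRep p)) : GQ → GQ → ZMod p) ∈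
            Z1 (LS S) V (cycRep p) :=
        Submodule.sub_mem _ (Quotient.out s).2.1 (Quotient.out s').2.1
      have hB := (Koch.mem_B1_iff_of_le_G1 hV1 hz).mpr (fun w hw => by
        simp only [Pi.sub_apply]
        rw [hxs w hw, sub_self])
      have h5 : (Submodule.Quotient.mk (Quotient.out s) : Sha1 S V (cycRep p)) =
          Submodule.Quotient.mk (Quotient.out s') := by
        rw [Submodule.Quotient.eq]
        exact hB
      have e1 : (Submodule.Quotient.mk (Quotient.out s) : Sha1 S V (cycRep p)) = s :=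
        Quotient.out_eq s
      have e2 : (Submodule.Quotient.mk (Quotient.out s') : Sha1 S V (cycRep p)) = s' :=
        Quotient.out_eq s'
      rw [← e1, ← e2, h5]
    subst hss
    have h6 : E (ext a - ext a') = inc b := by
      rw [map_sub, hinc, hb]; abel
    have h7 := hEinj _ _ h6
    have hb0 : b = 0 := by
      have := h7 i0
      simpa [ext] using this.symm
    have haa : a = a' := by
      funext i
      have := h7 i.1
      rw [hb0] at this
      simp only [ext, Pi.sub_apply, dif_pos i.2] at this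
      exact sub_eq_zero.mp this
    rw [haa]
  have hcard := Nat.card_le_card_of_injective Φ hinj
  rw [Nat.card_prod] at hcard
  have hQ : Nat.card ({i // i ≠ i0} → ZMod p) = p ^ (Fintype.card ι - 1) := by
    rw [Nat.card_fun, Nat.card_zmod, Nat.card_eq_fintype_card, Fintype.card_subtype_compl,
      Fintype.card_subtype_eq]
  rwa [hQ] at hcard

end Fermat.Agent.PT.WB

end
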