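/-
S55 block BASE, W5: injectivity of `alpha` (W-C) + card-rel (`Base.card_H2_le`) + (card) (`card_invOf_W_ge`) + (AL)
⇒ `BaseStatement`.
-/
import Fermat.Agent.PT.Base.WBCard
import Fermat.Agent.PT.Base.AL
import Fermat.Agent.PT.Base.Rec

set_option autoImplicit false
set_option linter.unusedSectionVars false

open ExtCitation
open scoped Pointwise

noncomputable section

namespace Fermat.Agent.PT.WB

variable {p : ℕ} [Fact p.Prime] {S : Finset Nat.Primes}

/-- the contract of W-C: `alpha` is injective on `coind (LS S) V triv`. -/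
def BaseInjStatement (hpS : pPrime p ∈ S) (lam : LocalFunctionals p S) : Prop :=
  ∀ tr : H2 (LS S) ⊤ (WQ p hpS) →ₗ[ZMod p] ZMod p, IsTrace hpS lam tr →
    ∀ V : Subgroup GQ, (LS S).IsOpen V → V ≤ G1 p →
      Function.Injective (alpha (LS S) ⊤ (WQ p hpS) tr (coind (LS S) V (trivRep p)))

/-- the identity `F_p → F_p(1)` is `V`-equivariant for `V ≤ G1 p`. -/
theorem id_mem_EHomOn_triv_cyc {V : Subgroup GQ} (hV1 : V ≤ G1 p) :
    (LinearMap.id : ZMod p →ₗ[ZMod p] ZMod p) ∈ EHomOn V (trivK (ZMod p) GQ) (cycRep p) := by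
  intro v hv a
  rw [Koch.cycRep_apply_of_mem_G1 (hV1 hv)]
  rfl

theorem card_H2_triv_eq (L : LevelSystem GQ) {V : Subgroup GQ} (hV1 : V ≤ G1 p) :
    Nat.card (H2 L V (trivK (ZMod p) GQ)) = Nat.card (H2 L V (cycRep p)) :=
  Nat.card_eq_of_bijective _
    (mapH2_bijective_of_bijective L V ⟨_, id_mem_EHomOn_triv_cyc hV1⟩ Function.bijective_id)

theorem finite_H2_triv (L : LevelSystem GQ) {V : Subgroup GQ} (hV1 : V ≤ G1 p)
    [Finite (H2 L V (cycRep p))] : Finite (H2 L V (trivK (ZMod p) GQ)) :=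
  Finite.of_injective _
    (mapH2_bijective_of_bijective L V ⟨_, id_mem_EHomOn_triv_cyc hV1⟩ Function.bijective_id).1

/-- **W5.** -/
theorem base_of_inj (hFC : FCStatement p) (hLC : LocalCardStatement p)
    (hCo : Base.LocalCoresOntoStatement p) (hpS : pPrime p ∈ S) {lam : LocalFunctionals p S}
    (hlam : ∀ ℓ, lam ℓ ≠ 0) (hrec : ReciprocityStatement lam) (hinj : BaseInjStatement hpS lam) :
    BaseStatement hpS lam := by
  classical
  intro tr htr V hV hV1
  have hV' : Lall.IsOpen V := Base.isOpen_of_le (LS_le_Lall S) hV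
  obtain ⟨P⟩ := Base.nonempty_PSys S hV'
  obtain ⟨-, f2, hle⟩ := Base.card_H2_le p hFC hLC hCo hpS P hV hV1 hlam hrec
  have : Finite (CosetsIn (⊤ : Subgroup GQ) V) := finite_cosetsIn_of_isOpen hV
  have hi : Function.Injective (ALT (LS S) V (WQ p hpS) tr) :=
    (alpha_coind_injective_iff (LS S) V hV (WQ p hpS) tr).1 (hinj tr htr V hV hV1)
  refine (alpha_coind_bijective_iff (LS S) V hV (WQ p hpS) tr).2 ?_
  have := finite_H2_triv (LS S) hV1
  obtain ⟨g1, g2⟩ := Base.card_dual p (X := H2 (LS S) V (trivK (ZMod p) GQ))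
  have : Finite ↥(ALfix (WQ p hpS) V) := Finite.of_injective _ hi
  have : Finite ↥(invOf V (WQ p hpS)) := ‹Finite ↥(ALfix (WQ p hpS) V)›
  have hc := card_invOf_W_ge hpS hV hV1 P.isPlaceSystem
  refine hi.bijective_of_nat_card_le ?_
  rw [g2, card_H2_triv_eq (LS S) hV1]
  exact hle.trans hc

/-- **BASE**, from the contracts of the other blocks and the injectivity statement of W-C. -/
theorem baseMain_of_inj (hR : RPrimeStatement p) (hFA : FACofinalStatement p)
    (hNr : LocalNrStatement p) (hCo : Base.LocalCoresOntoStatement p) (hLC : LocalCardStatement p)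
    (hFC : FCStatement p)
    (hinj : ∀ (S : Finset Nat.Primes) (hpS : pPrime p ∈ S) (lam : LocalFunctionals p S),
      (∀ ℓ, lam ℓ ≠ 0) → ReciprocityStatement lam → BaseInjStatement hpS lam) :
    Base.BaseMainStatement p := by
  intro S hpS
  obtain ⟨lam, h1, h2⟩ := Base.lam_main p hR hFA hNr hCo hLC S hpS
  exact ⟨lam, h1, h2, base_of_inj hFC hLC hCo hpS h1 h2 (hinj S hpS lam h1 h2)⟩

end Fermat.Agent.PT.WB

end
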