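/-
S55 (Poitou-Tate), block BASE: assembly.  `base_main : BaseMainStatement p` from the contracts.
Injectivity of `alpha`: `Base/Inj.lean`; cardinalities: `Base/Rec.lean` (card-rel) and helper14's
`Base/WBCard.lean`, `Base/W5.lean` (card).
-/
import Fermat.Agent.PT.Base.Inj
import Fermat.Agent.PT.Base.W5

set_option autoImplicit false
set_option maxHeartbeats 400000

open ExtCitation
open scoped Pointwise

noncomputable section

namespace Fermat.Agent.PT.Base

variable (p : ℕ) [Fact p.Prime]

/-- the output of the block BASE. -/
theorem base_main (hR : RPrimeStatement p) (hFA : FACofinalStatement p) (hFC : FCStatement p)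
    (hLC : LocalCardStatement p) (hNr : LocalNrStatement p) (hCo : LocalCoresOntoStatement p) :
    BaseMainStatement p :=
  WB.baseMain_of_inj hR hFA hNr hCo hLC hFC fun _ hpS _ h1 h2 _ htr _ hV hV1 =>
    alpha_injective p hFA hCo hpS h1 h2 htr hV hV1

end Fermat.Agent.PT.Base

end
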